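import Fermat.Agent.LT.Iso.Core

/-!
# The product of two polynomials in non-commuting letters

`mulW P Q : List κ →₀ ℂ` : concatenation of words. `evW`, `evN` and all other evaluations are
multiplicative. `evA φ P = ∑ c_l (l.map φ).prod` in any algebra, `RealW P` : real coefficients.
-/

set_option autoImplicit false
set_option linter.unusedSectionVars false

noncomputable section

open scoped ComplexConjugate

namespace Fermat.Agent.LT.Iso

variable {κ : Type*}

/-- the product: concatenation of words -/
def mulW (P Q : List κ →₀ ℂ) : List κ →₀ ℂ :=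
  P.sum fun l c => Q.sum fun m d => Finsupp.single (l ++ m) (c * d)

/-- the value of a polynomial in an algebra -/
def evA {M : Type*} [Semiring M] [Module ℂ M] (φ : κ → M) (P : List κ →₀ ℂ) : M :=
  P.sum fun l c => c • (l.map φ).prod

section add

variable {M : Type*} [Semiring M] [Module ℂ M] (φ : κ → M)

theorem evA_add (P Q : List κ →₀ ℂ) : evA φ (P + Q) = evA φ P + evA φ Q :=
  Finsupp.sum_add_index' (fun _ => zero_smul ℂ _) fun _ _ _ => add_smul _ _ _

theorem evA_zero : evA φ 0 = 0 := Finsupp.sum_zero_index

theorem evA_single (l : List κ) (c : ℂ) : evA φ (Finsupp.single l c) = c • (l.map φ).prod :=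
  Finsupp.sum_single_index (zero_smul ℂ _)

theorem evA_sum {ι : Type*} (s : Finset ι) (P : ι → List κ →₀ ℂ) :
    evA φ (∑ i ∈ s, P i) = ∑ i ∈ s, evA φ (P i) := by
  classical
  induction s using Finset.induction_on with
  | empty => rw [Finset.sum_empty, Finset.sum_empty, evA_zero]
  | insert i s hi ih => rw [Finset.sum_insert hi, Finset.sum_insert hi, evA_add, ih]

theorem evA_eq_sum_support (P : List κ →₀ ℂ) :
    evA φ P = ∑ l ∈ P.support, P l • (l.map φ).prod := rfl

end add

theorem mulW_add (P Q R : List κ →₀ ℂ) : mulW P (Q + R) = mulW P Q + mulW P R := by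
  unfold mulW
  rw [← Finsupp.sum_add]
  refine Finsupp.sum_congr fun l _ => ?_
  exact Finsupp.sum_add_index' (fun m => by rw [mul_zero, Finsupp.single_zero])
    fun m d d' => by rw [mul_add, Finsupp.single_add]

theorem add_mulW (P Q R : List κ →₀ ℂ) : mulW (P + Q) R = mulW P R + mulW Q R := by
  unfold mulW
  refine Finsupp.sum_add_index' (fun l => ?_) fun l c c' => ?_
  · simp
  · rw [← Finsupp.sum_add]
    refine Finsupp.sum_congr fun m _ => ?_
    rw [add_mul, Finsupp.single_add]

theorem mulW_single (l m : List κ) (c d : ℂ) :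
    mulW (Finsupp.single l c) (Finsupp.single m d) = Finsupp.single (l ++ m) (c * d) := by
  unfold mulW
  rw [Finsupp.sum_single_index, Finsupp.sum_single_index]
  · rw [mul_zero, Finsupp.single_zero]
  · simp

theorem mulW_zero (P : List κ →₀ ℂ) : mulW P 0 = 0 := by
  unfold mulW
  simp

theorem zero_mulW (P : List κ →₀ ℂ) : mulW 0 P = 0 := by
  unfold mulW
  simp

/-- **Evaluation is multiplicative.** -/
theorem evA_mulW {M : Type*} [Semiring M] [Algebra ℂ M] (φ : κ → M) (P Q : List κ →₀ ℂ) :
    evA φ (mulW P Q) = evA φ P * evA φ Q := by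
  induction P using Finsupp.induction_linear with
  | zero => rw [zero_mulW, evA_zero, zero_mul]
  | add P P' h h' => rw [add_mulW, evA_add, evA_add, h, h', add_mul]
  | single l c =>
    induction Q using Finsupp.induction_linear with
    | zero => rw [mulW_zero, evA_zero, mul_zero]
    | add Q Q' h h' => rw [mulW_add, evA_add, evA_add, h, h', mul_add]
    | single m d =>
      rw [mulW_single, evA_single, evA_single, evA_single, List.map_append, List.prod_append,
        smul_mul_assoc, mul_smul_comm, smul_smul]

/-- **Sums over the words of a product.** -/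
theorem sum_mulW {M : Type*} [AddCommMonoid M] [Module ℂ M] (P Q : List κ →₀ ℂ)
    (g : List κ → M) :
    ((mulW P Q).sum fun l c => c • g l) =
      P.sum fun l c => Q.sum fun m d => (c * d) • g (l ++ m) := by
  have e : ∀ R R' : List κ →₀ ℂ, ((R + R').sum fun l c => c • g l) =
      (R.sum fun l c => c • g l) + R'.sum fun l c => c • g l := fun R R' =>
    Finsupp.sum_add_index' (fun _ => zero_smul ℂ _) fun _ _ _ => add_smul _ _ _
  induction P using Finsupp.induction_linear with
  | zero => rw [zero_mulW, Finsupp.sum_zero_index, Finsupp.sum_zero_index]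
  | add P P' h h' =>
    rw [add_mulW, e, h, h', Finsupp.sum_add_index']
    · intro l
      simp
    · intro l c c'
      rw [← Finsupp.sum_add]
      exact Finsupp.sum_congr fun m _ => by rw [add_mul, add_smul]
  | single l c =>
    rw [Finsupp.sum_single_index (by simp)]
    induction Q using Finsupp.induction_linear with
    | zero => rw [mulW_zero, Finsupp.sum_zero_index, Finsupp.sum_zero_index]
    | add Q Q' h h' =>
      rw [mulW_add, e, h, h', Finsupp.sum_add_index']
      · intro m
        simp
      · intro m d d'
        rw [mul_add, add_smul]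
    | single m d =>
      rw [mulW_single, Finsupp.sum_single_index (h := fun l c => c • g l)
        (zero_smul ℂ _), Finsupp.sum_single_index (by simp)]

/-- A word of a product is the concatenation of two words. -/
theorem exists_of_mem_mulW {P Q : List κ →₀ ℂ} {l : List κ} (h : mulW P Q l ≠ 0) :
    ∃ m ∈ P.support, ∃ m' ∈ Q.support, l = m ++ m' := by
  classical
  by_contra hne
  push Not at hne
  apply h
  unfold mulW
  rw [Finsupp.sum, Finsupp.finsetSum_apply]
  refine Finset.sum_eq_zero fun m hm => ?_
  rw [Finsupp.sum, Finsupp.finsetSum_apply]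
  refine Finset.sum_eq_zero fun m' hm' => ?_
  rw [Finsupp.single_apply, if_neg fun e => hne m hm m' hm' e.symm]

/-! ### The two evaluations of the isolation theorem -/

section ev

variable {H : Type*} [NormedAddCommGroup H] [InnerProductSpace ℂ H] [CompleteSpace H]
  {I : Type*} (A : I → H →L[ℂ] H) (a : κ → I)

theorem evW_eq_evA (P : List κ →₀ ℂ) : evW A a P = evA (fun k => A (a k)) P := rfl

theorem evN_eq_evA (y : κ → ℝ) (P : List κ →₀ ℂ) : evN y P = evA (fun k => (y k : ℂ)) P := by
  have h : ∀ l : List κ, (((l.map y).prod : ℝ) : ℂ) = (l.map fun k => (y k : ℂ)).prod := by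
    intro l
    induction l with
    | nil => simp
    | cons k l ih => simp only [List.map_cons, List.prod_cons, Complex.ofReal_mul, ih]
  refine Finsupp.sum_congr fun l _ => ?_
  rw [smul_eq_mul, h]

theorem evW_mulW (P Q : List κ →₀ ℂ) : evW A a (mulW P Q) = evW A a P * evW A a Q := by
  rw [evW_eq_evA, evW_eq_evA, evW_eq_evA, evA_mulW]

theorem evN_mulW (y : κ → ℝ) (P Q : List κ →₀ ℂ) : evN y (mulW P Q) = evN y P * evN y Q := by
  rw [evN_eq_evA, evN_eq_evA, evN_eq_evA, evA_mulW]

end ev

/-! ### Commuting letters -/

section comm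

variable {M : Type*} [Semiring M] [Algebra ℂ M] {φ : κ → M}

theorem commute_word {x : M} (hx : ∀ i, Commute x (φ i)) (l : List κ) : Commute x (l.map φ).prod := by
  induction l with
  | nil => exact Commute.one_right x
  | cons k l ih =>
    rw [List.map_cons, List.prod_cons]
    exact (hx k).mul_right ih

theorem commute_evA {x : M} (hx : ∀ i, Commute x (φ i)) (P : List κ →₀ ℂ) : Commute x (evA φ P) := by
  unfold evA Finsupp.sum
  exact Commute.sum_right _ _ _ fun l _ => (commute_word hx l).smul_right _

/-- Polynomials in commuting letters commute. -/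
theorem evA_comm (h : ∀ i j, Commute (φ i) (φ j)) (P Q : List κ →₀ ℂ) :
    Commute (evA φ P) (evA φ Q) :=
  commute_evA (fun i => (commute_evA (fun j => h i j) P).symm) Q

end comm

/-! ### Real coefficients -/

/-- the coefficients are real -/
def RealW (P : List κ →₀ ℂ) : Prop := ∀ l, conj (P l) = P l

theorem realW_zero : RealW (0 : List κ →₀ ℂ) := fun l => by simp

theorem RealW.add {P Q : List κ →₀ ℂ} (hP : RealW P) (hQ : RealW Q) : RealW (P + Q) := fun l => by
  rw [Finsupp.add_apply, map_add, hP, hQ]

theorem RealW.sum {ι : Type*} {s : Finset ι} {P : ι → List κ →₀ ℂ} (h : ∀ i ∈ s, RealW (P i)) :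
    RealW (∑ i ∈ s, P i) := fun l => by
  rw [Finsupp.finsetSum_apply, map_sum]
  exact Finset.sum_congr rfl fun i hi => h i hi l

theorem realW_single (l : List κ) (c : ℝ) : RealW (Finsupp.single l (c : ℂ)) := fun m => by
  classical
  rw [Finsupp.single_apply]
  split_ifs
  · exact Complex.conj_ofReal c
  · exact map_zero _

theorem realW_single' (l : List κ) {c : ℂ} (hc : conj c = c) : RealW (Finsupp.single l c) :=
  fun m => by
  classical
  rw [Finsupp.single_apply]
  split_ifs
  · exact hc
  · exact map_zero _

theorem RealW.mulW {P Q : List κ →₀ ℂ} (hP : RealW P) (hQ : RealW Q) :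
    RealW (Iso.mulW P Q) := by
  unfold Iso.mulW Finsupp.sum
  refine RealW.sum fun l _ => RealW.sum fun m _ => realW_single' _ ?_
  rw [map_mul, hP, hQ]

/-- With real coefficients and self-adjoint commuting letters the value is self-adjoint. -/
theorem star_evA {M : Type*} [Ring M] [StarRing M] [Algebra ℂ M] [StarModule ℂ M] {φ : κ → M}
    (h : ∀ i j, Commute (φ i) (φ j)) (hs : ∀ i, star (φ i) = φ i) {P : List κ →₀ ℂ}
    (hP : RealW P) : star (evA φ P) = evA φ P := by
  have hw : ∀ l : List κ, star (l.map φ).prod = (l.map φ).prod := by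
    intro l
    induction l with
    | nil => exact star_one M
    | cons k l ih =>
      rw [List.map_cons, List.prod_cons, star_mul, ih, hs]
      exact (commute_word (fun j => h k j) l).symm
  rw [evA_eq_sum_support, star_sum]
  refine Finset.sum_congr rfl fun l _ => ?_
  rw [star_smul, hw]
  congr 1
  exact hP l

end Fermat.Agent.LT.Iso

end
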