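import Fermat.Agent.LT.Iso.Compare
import Fermat.Agent.LT.IsoAlg

/-!
# The isolation theorem on families of finite dimensional spaces

`L`-side: finite dimensional spaces `V i` (the `τ`-stable joint eigenspaces, level `I` at the three
places above `u`) with `e j`, `w j` (`j : Fin 3`), an operator `D` (bad places and `τ`) which
permutes the three places cyclically, and a scalar `m i` (the common factor). `K`-side: the same
with one place and `D` commuting with `e`, `w`.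
-/

set_option autoImplicit false

noncomputable section

open Filter Topology

namespace Fermat.Agent.LT.Iso

open Fermat.Agent.LT

/-- A piece of the `L`-side. -/
structure PieceL (q : ℝ) (V : Type*) [AddCommGroup V] [Module ℂ V] where
  /-- the projections on the vectors fixed by the maximal compact subgroups -/
  e : Fin 3 → Module.End ℂ V
  /-- the Atkin-Lehner elements -/
  w : Fin 3 → Module.End ℂ V
  /-- the operator at the bad places, composed with `τ` -/
  D : Module.End ℂ V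
  /-- the normalised Hecke eigenvalue -/
  x : ℝ
  rel : ∀ i, IwaRel (e i) (w i)
  hC : ∀ i, opC (q : ℂ) (e i) (w i) = ((Real.sqrt q * x : ℝ) : ℂ) • 1
  ee : ∀ i j, i ≠ j → e i * e j = e j * e i
  ew : ∀ i j, i ≠ j → e i * w j = w j * e i
  ww : ∀ i j, i ≠ j → w i * w j = w j * w i
  De : ∀ i, D * e i = e (i + 1) * D
  Dw : ∀ i, D * w i = w (i + 1) * D

/-- A piece of the `K`-side. -/
structure PieceK (q : ℝ) (V : Type*) [AddCommGroup V] [Module ℂ V] where
  /-- the projection on the vectors fixed by the maximal compact subgroup -/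
  e : Module.End ℂ V
  /-- the Atkin-Lehner element -/
  w : Module.End ℂ V
  /-- the operator at the bad places -/
  D : Module.End ℂ V
  /-- the normalised Hecke eigenvalue -/
  x : ℝ
  rel : IwaRel e w
  hC : opC (q : ℂ) e w = ((Real.sqrt q * x : ℝ) : ℂ) • 1
  De : D * e = e * D
  Dw : D * w = w * D

section Tr

variable {V : Type*} [AddCommGroup V] [Module ℂ V] {q : ℝ}

/-- `tr ((q^(-1/2) U)ⁿ D)` -/
def trU (q : ℝ) (U D : Module.End ℂ V) (n : ℕ) : ℂ :=
  (((Real.sqrt q) ^ n : ℝ) : ℂ)⁻¹ * LinearMap.trace ℂ V (U ^ n * D)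

theorem trU_zero (U D : Module.End ℂ V) : trU q U D 0 = LinearMap.trace ℂ V D := by
  simp [trU]

theorem trU_rec (hq : 0 < q) {e w D : Module.End ℂ V} {x : ℝ} (rel : IwaRel e w)
    (hC : opC (q : ℂ) e w = ((Real.sqrt q * x : ℝ) : ℂ) • 1) (n : ℕ) :
    trU q (opU (q : ℂ) e w) D (n + 2) =
      x * trU q (opU (q : ℂ) e w) D (n + 1) - trU q (opU (q : ℂ) e w) D n := by
  have hs : Real.sqrt q ≠ 0 := (Real.sqrt_pos.2 hq).ne'
  have hs2 : Real.sqrt q * Real.sqrt q = q := Real.mul_self_sqrt hq.le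
  set U := opU (q : ℂ) e w with hU
  have h1 : U ^ (n + 2) * D = ((Real.sqrt q * x : ℝ) : ℂ) • (U ^ (n + 1) * D) -
      (q : ℂ) • (U ^ n * D) := by
    have h2 : U * U = ((Real.sqrt q * x : ℝ) : ℂ) • U - (q : ℂ) • 1 := by
      have h3 := rel.opU_sq (q := (q : ℂ))
      rw [hC, smul_mul_assoc, one_mul] at h3
      exact h3
    rw [pow_add, pow_two, h2, mul_sub, mul_smul_comm, mul_smul_comm, mul_one, ← pow_succ, sub_mul,
      smul_mul_assoc, smul_mul_assoc]
  simp only [trU]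
  rw [h1, map_sub, map_smul, map_smul, smul_eq_mul, smul_eq_mul]
  have hsc : ((Real.sqrt q : ℝ) : ℂ) ≠ 0 := by exact_mod_cast hs
  have hq' : (q : ℂ) = ((Real.sqrt q : ℝ) : ℂ) * ((Real.sqrt q : ℝ) : ℂ) := by
    rw [← Complex.ofReal_mul, hs2]
  rw [hq']
  push_cast
  field_simp
  ring

end Tr

variable {ι ι' κ : Type*} {q : ℝ}
  {V : ι → Type*} [∀ i, AddCommGroup (V i)] [∀ i, Module ℂ (V i)]
  {V' : ι' → Type*} [∀ i, AddCommGroup (V' i)] [∀ i, Module ℂ (V' i)]

theorem PieceL.tr_eq {V : Type*} [AddCommGroup V] [Module ℂ V] (hq : 0 < q) (P : PieceL q V)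
    (hx : P.x = 0) : LinearMap.trace ℂ V P.D =
      2 * LinearMap.trace ℂ V (P.e 0 * P.e 1 * P.e 2 * P.D) := by
  have hq1 : (q : ℂ) + 1 ≠ 0 := by
    have : (q + 1 : ℝ) ≠ 0 := by positivity
    exact_mod_cast this
  have hC : ∀ i, opC (q : ℂ) (P.e i) (P.w i) = 0 := by
    intro i
    rw [P.hC, hx, mul_zero, Complex.ofReal_zero, zero_smul]
  exact trace_eq_two_mul_cyc (LinearMap.trace ℂ V) (fun a b => LinearMap.trace_mul_comm ℂ a b)
    (fun i => (P.rel i).e_sq) (fun i => (P.rel i).w_sq)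
    (fun i => (P.rel i).e_w_e_eq_zero hq1 (hC i)) (fun i => (P.rel i).add_eq_one hq1 (hC i))
    P.ee P.ew P.ww P.De P.Dw

theorem PieceK.exists_fixed {V : Type*} [AddCommGroup V] [Module ℂ V] (hq : 0 < q)
    (P : PieceK q V) (hx : P.x = 0) (hD : LinearMap.trace ℂ V P.D ≠ 0) :
    ∃ v : V, v ≠ 0 ∧ P.e v = v := by
  have hq1 : (q : ℂ) + 1 ≠ 0 := by
    have : (q + 1 : ℝ) ≠ 0 := by positivity
    exact_mod_cast this
  have hC : opC (q : ℂ) P.e P.w = 0 := by
    rw [P.hC, hx, mul_zero, Complex.ofReal_zero, zero_smul]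
  have h1 := P.rel.add_eq_one hq1 hC
  by_contra hcon
  push Not at hcon
  have he : P.e = 0 := by
    apply LinearMap.ext
    intro v
    by_contra hv
    refine hcon (P.e v) hv ?_
    exact LinearMap.congr_fun P.rel.e_sq v
  rw [he, mul_zero, zero_mul, add_zero] at h1
  apply hD
  have h2 : P.D = 0 := by rw [← one_mul P.D, ← h1, zero_mul]
  rw [h2, map_zero]

/-- **B9, the isolation theorem.** `m i`, `m' j`: the common factors; `h k i`, `h' k j`: the
eigenvalues of the operators used to separate; `y`: the target system. -/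
theorem exists_transfer (hq : 0 < q) (P : ∀ i, PieceL q (V i)) (P' : ∀ j, PieceK q (V' j))
    {B : ℝ} (hB : ∀ i, |(P i).x| ≤ B) (hB' : ∀ j, |(P' j).x| ≤ B)
    {h : κ → ι → ℝ} {h' : κ → ι' → ℝ} (hbd : ∀ k, ∃ C, ∀ i, |h k i| ≤ C)
    (hbd' : ∀ k, ∃ C, ∀ j, |h' k j| ≤ C) {m : ι → ℂ} {m' : ι' → ℂ}
    (h0 : Summable fun i => m i * LinearMap.trace ℂ (V i) (P i).D)
    (h1 : Summable fun i =>
      m i * LinearMap.trace ℂ (V i) (opU (q : ℂ) ((P i).e 0) ((P i).w 0) * (P i).D))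
    (h0' : Summable fun j => m' j * LinearMap.trace ℂ (V' j) (P' j).D)
    (h1' : Summable fun j =>
      m' j * LinearMap.trace ℂ (V' j) (opU (q : ℂ) (P' j).e (P' j).w * (P' j).D))
    (H : ∀ p : MvPolynomial κ ℝ, ∃ n₀ : ℕ, ∀ n, n₀ ≤ n →
      ∑' i, ((MvPolynomial.aeval (fun k => h k i) p : ℝ) : ℂ) *
        (m i * LinearMap.trace ℂ (V i) (opU (q : ℂ) ((P i).e 0) ((P i).w 0) ^ n * (P i).D)) =
      ∑' j, ((MvPolynomial.aeval (fun k => h' k j) p : ℝ) : ℂ) *
        (m' j * LinearMap.trace ℂ (V' j) (opU (q : ℂ) (P' j).e (P' j).w ^ n * (P' j).D)))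
    {y : κ → ℝ} {m₀ : ℂ} (hm₀ : m₀ ≠ 0)
    (hm : ∀ i, (P i).x = 0 → (∀ k, h k i = y k) → m i = m₀)
    {b : ι → ℝ} (hb : ∀ i, (P i).x = 0 → (∀ k, h k i = y k) → 0 ≤ b i ∧
      LinearMap.trace ℂ (V i) ((P i).e 0 * (P i).e 1 * (P i).e 2 * (P i).D) = b i)
    {i₀ : ι} (hi₀ : (P i₀).x = 0) (hy : ∀ k, h k i₀ = y k) (hb0 : 0 < b i₀) :
    ∃ j, (P' j).x = 0 ∧ (∀ k, h' k j = y k) ∧ ∃ v : V' j, v ≠ 0 ∧ (P' j).e v = v := by
  have hs : Real.sqrt q ≠ 0 := (Real.sqrt_pos.2 hq).ne'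
  set c : ℕ → ι → ℂ := fun n i =>
    m i * trU q (opU (q : ℂ) ((P i).e 0) ((P i).w 0)) (P i).D n with hc
  set c' : ℕ → ι' → ℂ := fun n j =>
    m' j * trU q (opU (q : ℂ) (P' j).e (P' j).w) (P' j).D n with hc'
  have e0 : c 0 = fun i => m i * LinearMap.trace ℂ (V i) (P i).D := by
    ext i; simp only [hc, trU_zero]
  have e0' : c' 0 = fun j => m' j * LinearMap.trace ℂ (V' j) (P' j).D := by
    ext j; simp only [hc', trU_zero]
  have en : ∀ n i, c n i = (((Real.sqrt q) ^ n : ℝ) : ℂ)⁻¹ *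
      (m i * LinearMap.trace ℂ (V i) (opU (q : ℂ) ((P i).e 0) ((P i).w 0) ^ n * (P i).D)) := by
    intro n i
    simp only [hc, trU]
    ring
  have en' : ∀ n j, c' n j = (((Real.sqrt q) ^ n : ℝ) : ℂ)⁻¹ *
      (m' j * LinearMap.trace ℂ (V' j) (opU (q : ℂ) (P' j).e (P' j).w ^ n * (P' j).D)) := by
    intro n j
    simp only [hc', trU]
    ring
  obtain ⟨j, hj1, hj2, hj3⟩ := exists_index (x := fun i => (P i).x) (x' := fun j => (P' j).x)
    hB hB' hbd hbd' (c := c) (c' := c')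
    (by rw [e0]; exact h0)
    (by
      refine (h1.mul_left ((((Real.sqrt q) ^ 1 : ℝ) : ℂ)⁻¹)).congr fun i => ?_
      rw [en, pow_one (opU (q : ℂ) ((P i).e 0) ((P i).w 0))])
    (by rw [e0']; exact h0')
    (by
      refine (h1'.mul_left ((((Real.sqrt q) ^ 1 : ℝ) : ℂ)⁻¹)).congr fun i => ?_
      rw [en', pow_one (opU (q : ℂ) (P' i).e (P' i).w)])
    (fun n i => by
      simp only [hc]
      rw [trU_rec hq ((P i).rel 0) ((P i).hC 0)]
      ring)
    (fun n j => by
      simp only [hc']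
      rw [trU_rec hq (P' j).rel (P' j).hC]
      ring)
    (by
      intro p
      obtain ⟨n₀, hn₀⟩ := H p
      refine ⟨n₀, fun n hn => ?_⟩
      have h2 := congrArg (fun z => (((Real.sqrt q) ^ n : ℝ) : ℂ)⁻¹ * z) (hn₀ n hn)
      simp only [← tsum_mul_left] at h2
      refine (tsum_congr fun i => ?_).trans (h2.trans (tsum_congr fun j => ?_))
      · rw [en]; ring
      · rw [en']; ring) y
    (by
      refine part_ne_zero (s := 2 * m₀) (b := b) (i₀ := i₀) ?_ ?_ ?_ ?_ hi₀ hy hb0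
      · rw [e0]; exact h0
      · exact mul_ne_zero two_ne_zero hm₀
      · intro i hi hyi
        have h2 := (hb i hi hyi).2
        rw [e0]
        simp only
        rw [(P i).tr_eq hq hi, h2, hm i hi hyi]
        ring
      · exact fun i hi hyi => (hb i hi hyi).1)
  refine ⟨j, hj1, hj2, (P' j).exists_fixed hq hj1 ?_⟩
  intro h2
  apply hj3
  rw [e0']
  simp only
  rw [h2, mul_zero]

end Fermat.Agent.LT.Iso
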