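import Fermat.Agent.LT.Spec.Joint
import Fermat.Agent.LT.Iso.Transfer

/-!
# The isolation theorem in Hilbert spaces

`adapted` : a Hilbert basis made of orthonormal bases of the joint eigenspaces. The sum
`∑ ⟪b j, T τ (b j)⟫` is the sum over the `τ`-stable systems of the traces on the joint eigenspaces.
-/

set_option autoImplicit false
set_option linter.unusedSectionVars false

noncomputable section

open Filter Topology Module
open scoped InnerProductSpace

namespace Fermat.Agent.LT.Iso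

open Fermat.Agent.LT

variable {H : Type*} [NormedAddCommGroup H] [InnerProductSpace ℂ H] [CompleteSpace H]
  {I : Type*} {A : I → H →L[ℂ] H}

/-- Joint diagonalisation. -/
structure IsDiag (A : I → H →L[ℂ] H) : Prop where
  sym : ∀ i, (A i).IsSymmetric
  fin : ∀ χ : I → ℝ, FiniteDimensional ℂ (jointEig A χ)
  dense : (⨆ χ : I → ℝ, jointEig A χ).topologicalClosure = ⊤

namespace IsDiag

variable (hA : IsDiag A)

/-- orthonormal basis of a joint eigenspace -/
def pieceBasis (χ : I → ℝ) :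
    OrthonormalBasis (Fin (finrank ℂ (jointEig A χ))) ℂ (jointEig A χ) :=
  haveI := hA.fin χ
  stdOrthonormalBasis ℂ (jointEig A χ)

/-- the vectors of the adapted basis -/
def vec (p : Σ χ : I → ℝ, Fin (finrank ℂ (jointEig A χ))) : H :=
  (hA.pieceBasis p.1 p.2 : jointEig A p.1)

theorem vec_mem (p : Σ χ : I → ℝ, Fin (finrank ℂ (jointEig A χ))) :
    hA.vec p ∈ jointEig A p.1 := (hA.pieceBasis p.1 p.2).2

theorem orthonormal_vec : Orthonormal ℂ hA.vec :=
  (orthogonalFamily_jointEig hA.sym).orthonormal_sigma_orthonormal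
    (fun χ => (hA.pieceBasis χ).orthonormal)

theorem dense_vec : ⊤ ≤ (Submodule.span ℂ (Set.range hA.vec)).topologicalClosure := by
  rw [← hA.dense]
  refine Submodule.topologicalClosure_mono (iSup_le fun χ v hv => ?_)
  have h1 : (⟨v, hv⟩ : jointEig A χ) = ∑ k, (hA.pieceBasis χ).repr ⟨v, hv⟩ k •
      hA.pieceBasis χ k := ((hA.pieceBasis χ).sum_repr ⟨v, hv⟩).symm
  have h2 : v = ∑ k, (hA.pieceBasis χ).repr ⟨v, hv⟩ k • hA.vec ⟨χ, k⟩ := by
    have h3 := congrArg (fun z : jointEig A χ => (z : H)) h1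
    simp only [Submodule.coe_sum, Submodule.coe_smul] at h3
    exact h3
  rw [h2]
  exact Submodule.sum_mem _ fun k _ => Submodule.smul_mem _ _ (Submodule.subset_span ⟨_, rfl⟩)

/-- **The adapted Hilbert basis.** -/
def adapted : HilbertBasis (Σ χ : I → ℝ, Fin (finrank ℂ (jointEig A χ))) ℂ H :=
  HilbertBasis.mk hA.orthonormal_vec hA.dense_vec

theorem adapted_apply (p : Σ χ : I → ℝ, Fin (finrank ℂ (jointEig A χ))) :
    hA.adapted p = hA.vec p := by
  rw [adapted, HilbertBasis.coe_mk]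

/-- the sum of the diagonal entries over one piece -/
def diag (T : H →L[ℂ] H) (χ : I → ℝ) : ℂ :=
  ∑ k, ⟪hA.vec ⟨χ, k⟩, T (hA.vec ⟨χ, k⟩)⟫_ℂ

/-- the full sum of the diagonal entries -/
def tr (T : H →L[ℂ] H) : ℂ := ∑' p, ⟪hA.adapted p, T (hA.adapted p)⟫_ℂ

/-- absolute convergence of the sum of the diagonal entries -/
def Tr (T : H →L[ℂ] H) : Prop := Summable fun p => ⟪hA.adapted p, T (hA.adapted p)⟫_ℂ

theorem tr_eq {T : H →L[ℂ] H} (hT : hA.Tr T) : hA.tr T = ∑' χ, hA.diag T χ := by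
  rw [tr, Summable.tsum_sigma hT]
  refine tsum_congr fun χ => ?_
  rw [tsum_fintype, diag]
  exact Finset.sum_congr rfl fun k _ => by rw [adapted_apply]

theorem summable_diag {T : H →L[ℂ] H} (hT : hA.Tr T) : Summable (hA.diag T) := by
  have h1 : Summable fun χ => ∑' k, ⟪hA.adapted ⟨χ, k⟩, T (hA.adapted ⟨χ, k⟩)⟫_ℂ :=
    Summable.sigma hT
  refine h1.congr fun χ => ?_
  rw [tsum_fintype, diag]
  exact Finset.sum_congr rfl fun k _ => by rw [adapted_apply]

/-- an operator which preserves the piece -/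
theorem diag_eq_trace {T : H →L[ℂ] H} {χ : I → ℝ} (hT : ∀ v ∈ jointEig A χ, T v ∈ jointEig A χ) :
    hA.diag T χ = LinearMap.trace ℂ (jointEig A χ) ((T : H →ₗ[ℂ] H).restrict hT) := by
  have := hA.fin χ
  rw [LinearMap.trace_eq_sum_inner _ (hA.pieceBasis χ), diag]
  rfl

/-- an operator which maps the piece to another one -/
theorem diag_eq_zero {T : H →L[ℂ] H} {χ χ' : I → ℝ} (hne : χ ≠ χ')
    (hT : ∀ v ∈ jointEig A χ, T v ∈ jointEig A χ') : hA.diag T χ = 0 :=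
  Finset.sum_eq_zero fun k _ => jointEig_inner_eq_zero hA.sym hne (hA.vec_mem ⟨χ, k⟩)
    (hT _ (hA.vec_mem ⟨χ, k⟩))

theorem inner_mul_left (i : I) (T : H →L[ℂ] H)
    (p : Σ χ : I → ℝ, Fin (finrank ℂ (jointEig A χ))) :
    ⟪hA.adapted p, (A i * T) (hA.adapted p)⟫_ℂ =
      (p.1 i : ℂ) * ⟪hA.adapted p, T (hA.adapted p)⟫_ℂ := by
  rw [adapted_apply]
  change ⟪hA.vec p, A i (T (hA.vec p))⟫_ℂ = _
  have h1 : ⟪A i (hA.vec p), T (hA.vec p)⟫_ℂ = ⟪hA.vec p, A i (T (hA.vec p))⟫_ℂ := hA.sym i _ _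
  rw [← h1, hA.vec_mem p i, inner_smul_left, Complex.conj_ofReal]

/-- left multiplication by an operator which is a real scalar on the pieces -/
theorem diag_mul_left (i : I) (T : H →L[ℂ] H) (χ : I → ℝ) :
    hA.diag (A i * T) χ = (χ i : ℂ) * hA.diag T χ := by
  rw [diag, diag, Finset.mul_sum]
  refine Finset.sum_congr rfl fun k _ => ?_
  change ⟪hA.vec ⟨χ, k⟩, A i (T (hA.vec ⟨χ, k⟩))⟫_ℂ = _
  have h1 : ⟪A i (hA.vec ⟨χ, k⟩), T (hA.vec ⟨χ, k⟩)⟫_ℂ =
      ⟪hA.vec ⟨χ, k⟩, A i (T (hA.vec ⟨χ, k⟩))⟫_ℂ := hA.sym i _ _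
  rw [← h1, hA.vec_mem ⟨χ, k⟩ i, inner_smul_left, Complex.conj_ofReal]

/-- words in the operators -/
theorem diag_word {κ : Type*} (a : κ → I) (l : List κ) (T : H →L[ℂ] H) (χ : I → ℝ) :
    hA.diag ((l.map fun k => A (a k)).prod * T) χ =
      (((l.map fun k => χ (a k)).prod : ℝ) : ℂ) * hA.diag T χ := by
  induction l with
  | nil => simp
  | cons k l ih =>
    rw [List.map_cons, List.prod_cons, mul_assoc, diag_mul_left, ih, List.map_cons,
      List.prod_cons, Complex.ofReal_mul, mul_assoc]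

include hA in
/-- eigenvalues are bounded by the norm -/
theorem abs_le_norm {χ : I → ℝ} (hχ : jointEig A χ ≠ ⊥) (i : I) : |χ i| ≤ ‖A i‖ := by
  obtain ⟨v, hv, hv0⟩ := Submodule.exists_mem_ne_zero_of_ne_bot hχ
  have h1 : ‖A i v‖ = |χ i| * ‖v‖ := by
    rw [hv i, norm_smul, Complex.norm_real, Real.norm_eq_abs]
  have h2 := (A i).le_opNorm v
  rw [h1] at h2
  exact le_of_mul_le_mul_right h2 (norm_pos_iff.2 hv0)

theorem Tr_mul_left {T : H →L[ℂ] H} (hT : hA.Tr T) (i : I) : hA.Tr (A i * T) := by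
  refine Summable.of_norm_bounded
    (g := fun p => ‖A i‖ * ‖⟪hA.adapted p, T (hA.adapted p)⟫_ℂ‖) (hT.norm.mul_left _) fun p => ?_
  rw [inner_mul_left, norm_mul, Complex.norm_real, Real.norm_eq_abs]
  refine mul_le_mul_of_nonneg_right (hA.abs_le_norm ?_ i) (norm_nonneg _)
  intro h
  have h1 := hA.vec_mem p
  rw [h, Submodule.mem_bot] at h1
  have h2 := hA.orthonormal_vec.ne_zero p
  exact h2 h1

theorem Tr_word {κ : Type*} (a : κ → I) (l : List κ) {T : H →L[ℂ] H} (hT : hA.Tr T) :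
    hA.Tr ((l.map fun k => A (a k)).prod * T) := by
  induction l with
  | nil => simpa using hT
  | cons k l ih =>
    rw [List.map_cons, List.prod_cons, mul_assoc]
    exact hA.Tr_mul_left ih _

theorem Tr_sub {T U : H →L[ℂ] H} (hT : hA.Tr T) (hU : hA.Tr U) : hA.Tr (T - U) := by
  refine (Summable.sub hT hU).congr fun p => ?_
  change _ = ⟪hA.adapted p, T (hA.adapted p) - U (hA.adapted p)⟫_ℂ
  rw [inner_sub_right]

theorem Tr_smul {T : H →L[ℂ] H} (hT : hA.Tr T) (c : ℂ) : hA.Tr (c • T) := by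
  refine (Summable.mul_left c hT).congr fun p => ?_
  change _ = ⟪hA.adapted p, c • T (hA.adapted p)⟫_ℂ
  rw [inner_smul_right]

/-- all powers of `U` -/
theorem Tr_pow {q : ℂ} {e w M D : H →L[ℂ] H} {c : I} (rel : IwaRel e w)
    (hC : A c = opC q e w) (hM : A c * M = M * A c) (h0 : hA.Tr (M * D))
    (h1 : hA.Tr (M * (opU q e w * D))) (n : ℕ) : hA.Tr (M * (opU q e w ^ n * D)) := by
  induction n using Nat.strong_induction_on with
  | _ n ih =>
    match n, ih with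
    | 0, _ => rwa [pow_zero, one_mul]
    | 1, _ => rwa [pow_one]
    | n + 2, ih =>
      have h2 : M * (opU q e w ^ (n + 2) * D) =
          A c * (M * (opU q e w ^ (n + 1) * D)) - q • (M * (opU q e w ^ n * D)) := by
        have h3 : opU q e w ^ (n + 2) = A c * opU q e w ^ (n + 1) - q • opU q e w ^ n := by
          rw [add_comm n 2, pow_add, pow_two, rel.opU_sq, ← hC, sub_mul, smul_mul_assoc, one_mul,
            mul_assoc, ← pow_succ']
        rw [h3, sub_mul, mul_sub, smul_mul_assoc, mul_smul_comm, ← mul_assoc (A c), hM,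
          mul_assoc M (A c), mul_assoc (A c)]
      rw [h2]
      exact hA.Tr_sub (hA.Tr_mul_left (ih (n + 1) (by omega)) c)
        (hA.Tr_smul (ih n (by omega)) q)

end IsDiag

/-- the eigenvalue of a word, as the value of a polynomial -/
theorem aeval_monomial_eq {κ : Type*} (f : κ → ℝ) (s : κ →₀ ℕ) (c : ℝ) :
    MvPolynomial.aeval f (MvPolynomial.monomial s c) =
      c * ((Finsupp.toMultiset s).toList.map f).prod := by
  rw [MvPolynomial.aeval_monomial]
  congr 1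
  have h1 : ((Finsupp.toMultiset s).toList.map f).prod = ((Finsupp.toMultiset s).map f).prod := by
    rw [← Multiset.prod_coe, ← Multiset.map_coe, Multiset.coe_toList]
  rw [h1, Finsupp.toMultiset_map, Finsupp.prod_toMultiset, Finsupp.prod_mapDomain_index]
  · intro b; exact pow_zero b
  · intro b m n; exact pow_add b m n

section Sides

variable (q : ℝ)

/-- The `L`-side in a Hilbert space. -/
structure SideL (H : Type*) [NormedAddCommGroup H] [InnerProductSpace ℂ H] [CompleteSpace H]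
    (I : Type*) where
  /-- the commuting family -/
  A : I → H →L[ℂ] H
  /-- vectors fixed by the maximal compact subgroups at the three places above `u` -/
  e : Fin 3 → H →L[ℂ] H
  /-- Atkin-Lehner elements -/
  w : Fin 3 → H →L[ℂ] H
  /-- bad places -/
  S : H →L[ℂ] H
  /-- the Galois automorphism -/
  τ : H →L[ℂ] H
  /-- fixed factor -/
  M : H →L[ℂ] H
  /-- the permutation of the indices -/
  σ : Equiv.Perm I
  /-- the indices of the central elements at the places above `u` -/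
  c : Fin 3 → I
  /-- the eigenvalues of the fixed factor -/
  mv : (I → ℝ) → ℂ
  diag : IsDiag A
  rel : ∀ j, IwaRel (e j) (w j)
  hC : ∀ j, A (c j) = opC (q : ℂ) (e j) (w j)
  ee : ∀ i j, i ≠ j → e i * e j = e j * e i
  ew : ∀ i j, i ≠ j → e i * w j = w j * e i
  ww : ∀ i j, i ≠ j → w i * w j = w j * w i
  Ae : ∀ i j, A i * e j = e j * A i
  Aw : ∀ i j, A i * w j = w j * A i
  AS : ∀ i, A i * S = S * A i
  Se : ∀ j, S * e j = e j * S
  Sw : ∀ j, S * w j = w j * S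
  τA : ∀ i, τ * A i = A (σ i) * τ
  τe : ∀ j, τ * e j = e (j + 1) * τ
  τw : ∀ j, τ * w j = w (j + 1) * τ
  σc : ∀ j, σ (c j) = c (j + 1)
  AM : ∀ i, A i * M = M * A i
  Mv : ∀ χ, ∀ v ∈ jointEig A χ, M v = mv χ • v

/-- The `K`-side in a Hilbert space. -/
structure SideK (H : Type*) [NormedAddCommGroup H] [InnerProductSpace ℂ H] [CompleteSpace H]
    (I : Type*) where
  /-- the commuting family -/
  A : I → H →L[ℂ] H
  /-- vectors fixed by the maximal compact subgroup at `u` -/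
  e : H →L[ℂ] H
  /-- Atkin-Lehner element -/
  w : H →L[ℂ] H
  /-- bad places -/
  S : H →L[ℂ] H
  /-- fixed factor -/
  M : H →L[ℂ] H
  /-- the index of the central element -/
  c : I
  /-- the eigenvalues of the fixed factor -/
  mv : (I → ℝ) → ℂ
  diag : IsDiag A
  rel : IwaRel e w
  hC : A c = opC (q : ℂ) e w
  Ae : ∀ i, A i * e = e * A i
  Aw : ∀ i, A i * w = w * A i
  AS : ∀ i, A i * S = S * A i
  Se : S * e = e * S
  Sw : S * w = w * S
  AM : ∀ i, A i * M = M * A i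
  Mv : ∀ χ, ∀ v ∈ jointEig A χ, M v = mv χ • v

end Sides

theorem mem_jointEig_of_commute {A : I → H →L[ℂ] H} {T : H →L[ℂ] H}
    (hT : ∀ i, A i * T = T * A i) {χ : I → ℝ} {v : H} (hv : v ∈ jointEig A χ) :
    T v ∈ jointEig A χ := by
  intro i
  have h1 := congrArg (fun S : H →L[ℂ] H => S v) (hT i)
  change A i (T v) = T (A i v) at h1
  rw [h1, hv i, map_smul]

section Restrict

variable {q : ℝ} {p : Submodule ℂ H}

/-- the restriction to a stable subspace -/
abbrev rs (T : H →L[ℂ] H) (hT : ∀ v ∈ p, T v ∈ p) : Module.End ℂ p :=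
  (T : H →ₗ[ℂ] H).restrict hT

theorem coe_rs (T : H →L[ℂ] H) (hT : ∀ v ∈ p, T v ∈ p) (v : p) :
    ((rs T hT v : p) : H) = T v := rfl

theorem rs_mul_eq {T U T' U' : H →L[ℂ] H} {hT : ∀ v ∈ p, T v ∈ p} {hU : ∀ v ∈ p, U v ∈ p}
    {hT' : ∀ v ∈ p, T' v ∈ p} {hU' : ∀ v ∈ p, U' v ∈ p} (h : T * U = U' * T') :
    rs T hT * rs U hU = rs U' hU' * rs T' hT' := by
  apply LinearMap.ext
  intro v
  apply Subtype.ext
  exact congrArg (fun S : H →L[ℂ] H => S (v : H)) h

theorem rs_rel {e w : H →L[ℂ] H} (he : ∀ v ∈ p, e v ∈ p) (hw : ∀ v ∈ p, w v ∈ p)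
    (h : IwaRel e w) : IwaRel (rs e he) (rs w hw) where
  e_sq := by
    apply LinearMap.ext
    intro v
    apply Subtype.ext
    exact congrArg (fun S : H →L[ℂ] H => S (v : H)) h.e_sq
  w_sq := by
    apply LinearMap.ext
    intro v
    apply Subtype.ext
    exact congrArg (fun S : H →L[ℂ] H => S (v : H)) h.w_sq

theorem coe_opC_rs {e w : H →L[ℂ] H} (he : ∀ v ∈ p, e v ∈ p) (hw : ∀ v ∈ p, w v ∈ p) (v : p) :
    ((opC (q : ℂ) (rs e he) (rs w hw) v : p) : H) = opC (q : ℂ) e w v := by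
  simp only [opC, LinearMap.smul_apply, LinearMap.sub_apply, LinearMap.add_apply,
    Module.End.mul_apply, Submodule.coe_smul, Submodule.coe_sub, Submodule.coe_add]
  rfl

theorem opU_rs {e w : H →L[ℂ] H} (he : ∀ v ∈ p, e v ∈ p) (hw : ∀ v ∈ p, w v ∈ p)
    (hU : ∀ v ∈ p, opU (q : ℂ) e w v ∈ p) :
    opU (q : ℂ) (rs e he) (rs w hw) = rs (opU (q : ℂ) e w) hU := by
  apply LinearMap.ext
  intro v
  apply Subtype.ext
  simp only [opU, LinearMap.sub_apply, LinearMap.smul_apply,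
    Module.End.mul_apply, Submodule.coe_smul, Submodule.coe_sub]
  rfl

theorem rs_pow_apply {U : H →L[ℂ] H} (hU : ∀ v ∈ p, U v ∈ p) (n : ℕ) (v : p) :
    (((rs U hU ^ n) v : p) : H) = (U ^ n) v := by
  induction n with
  | zero => rfl
  | succ n ih =>
    rw [pow_succ', pow_succ', Module.End.mul_apply, coe_rs, ih]
    rfl

end Restrict

/-- the diagonal sum over a piece, for `M (Uⁿ D)` with `M` a scalar on the piece -/
theorem IsDiag.diag_pow (hA : IsDiag A) {χ : I → ℝ} {U D M : H →L[ℂ] H} {m : ℂ}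
    (hU : ∀ v ∈ jointEig A χ, U v ∈ jointEig A χ) (hD : ∀ v ∈ jointEig A χ, D v ∈ jointEig A χ)
    (hM : ∀ v ∈ jointEig A χ, M v = m • v) (n : ℕ) :
    hA.diag (M * (U ^ n * D)) χ =
      m * LinearMap.trace ℂ (jointEig A χ) (rs U hU ^ n * rs D hD) := by
  have hUn : ∀ n, ∀ v ∈ jointEig A χ, (U ^ n) v ∈ jointEig A χ := by
    intro n
    induction n with
    | zero => exact fun v hv => hv
    | succ n ih =>
      intro v hv
      rw [pow_succ']
      exact hU _ (ih v hv)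
  have hT : ∀ v ∈ jointEig A χ, (M * (U ^ n * D)) v ∈ jointEig A χ := by
    intro v hv
    change M ((U ^ n) (D v)) ∈ _
    rw [hM _ (hUn n _ (hD v hv))]
    exact Submodule.smul_mem _ _ (hUn n _ (hD v hv))
  have h1 : rs (M * (U ^ n * D)) hT = m • (rs U hU ^ n * rs D hD) := by
    apply LinearMap.ext
    intro v
    apply Subtype.ext
    change M ((U ^ n) (D (v : H))) = m • (((rs U hU ^ n) (rs D hD v) : jointEig A χ) : H)
    rw [rs_pow_apply, coe_rs, hM _ (hUn n _ (hD v v.2))]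
  exact (hA.diag_eq_trace hT).trans ((congrArg _ h1).trans (map_smul _ _ _))


namespace SideL

variable {q : ℝ} (L : SideL q H I)

theorem Sτ_stable {χ : I → ℝ} (hχ : ∀ i, χ (L.σ i) = χ i) {v : H} (hv : v ∈ jointEig L.A χ) :
    (L.S * L.τ) v ∈ jointEig L.A χ := by
  have h1 : L.τ v ∈ jointEig L.A χ := by
    intro i
    obtain ⟨i', rfl⟩ := L.σ.surjective i
    have h2 := congrArg (fun S : H →L[ℂ] H => S v) (L.τA i')
    change L.τ (L.A i' v) = L.A (L.σ i') (L.τ v) at h2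
    rw [← h2, hv i', map_smul, hχ]
  exact mem_jointEig_of_commute L.AS h1

theorem τ_mem {χ : I → ℝ} {v : H} (hv : v ∈ jointEig L.A χ) :
    L.τ v ∈ jointEig L.A (fun i => χ (L.σ.symm i)) := by
  intro i
  obtain ⟨i', rfl⟩ := L.σ.surjective i
  have h2 := congrArg (fun S : H →L[ℂ] H => S v) (L.τA i')
  change L.τ (L.A i' v) = L.A (L.σ i') (L.τ v) at h2
  rw [← h2, hv i', map_smul]
  simp only [Equiv.symm_apply_apply]

theorem χc_eq {χ : I → ℝ} (hχ : ∀ i, χ (L.σ i) = χ i) (j : Fin 3) : χ (L.c j) = χ (L.c 0) := by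
  have h1 : ∀ j, χ (L.c (j + 1)) = χ (L.c j) := fun j => by rw [← L.σc, hχ]
  have e1 : χ (L.c 1) = χ (L.c 0) := h1 0
  have e2 : χ (L.c 2) = χ (L.c 1) := h1 1
  fin_cases j
  · rfl
  · exact e1
  · exact e2.trans e1

/-- the piece of a stable system -/
def piece (hq : 0 < q) (χ : I → ℝ) (hχ : ∀ i, χ (L.σ i) = χ i) : PieceL q (jointEig L.A χ) where
  e j := rs (L.e j) fun _ hv => mem_jointEig_of_commute (fun i => L.Ae i j) hv
  w j := rs (L.w j) fun _ hv => mem_jointEig_of_commute (fun i => L.Aw i j) hv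
  D := rs (L.S * L.τ) fun _ hv => L.Sτ_stable hχ hv
  x := χ (L.c 0) / Real.sqrt q
  rel j := rs_rel _ _ (L.rel j)
  hC j := by
    apply LinearMap.ext
    intro v
    apply Subtype.ext
    rw [coe_opC_rs, ← L.hC, v.2 (L.c j), L.χc_eq hχ,
      mul_div_cancel₀ _ (Real.sqrt_pos.2 hq).ne']
    rfl
  ee i j h := rs_mul_eq (L.ee i j h)
  ew i j h := rs_mul_eq (L.ew i j h)
  ww i j h := rs_mul_eq (L.ww i j h)
  De j := rs_mul_eq (by rw [mul_assoc, L.τe, ← mul_assoc, L.Se, mul_assoc])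
  Dw j := rs_mul_eq (by rw [mul_assoc, L.τw, ← mul_assoc, L.Sw, mul_assoc])

theorem diag_unstable {χ : I → ℝ} (hχ : ¬ ∀ i, χ (L.σ i) = χ i) {T : H →L[ℂ] H}
    (hT : ∀ i, L.A i * T = T * L.A i) : L.diag.diag (T * L.τ) χ = 0 := by
  refine L.diag.diag_eq_zero (χ' := fun i => χ (L.σ.symm i)) ?_ ?_
  · intro h
    apply hχ
    intro i
    have := congrFun h (L.σ i)
    rwa [Equiv.symm_apply_apply] at this
  · intro v hv
    exact mem_jointEig_of_commute hT (L.τ_mem hv)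

theorem AU (i : I) :
    L.A i * opU (q : ℂ) (L.e 0) (L.w 0) = opU (q : ℂ) (L.e 0) (L.w 0) * L.A i := by
  have h5 : L.A i * (((q : ℂ) + 1) • L.e 0 - 1) = (((q : ℂ) + 1) • L.e 0 - 1) * L.A i := by
    rw [mul_sub, sub_mul, mul_smul_comm, smul_mul_assoc, L.Ae, mul_one, one_mul]
  rw [opU, ← mul_assoc, h5, mul_assoc, L.Aw, ← mul_assoc]

/-- the diagonal sum over a stable piece -/
theorem diag_stable (hq : 0 < q) {χ : I → ℝ} (hχ : ∀ i, χ (L.σ i) = χ i) (n : ℕ) :
    L.diag.diag (L.M * (opU (q : ℂ) (L.e 0) (L.w 0) ^ n * (L.S * L.τ))) χ =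
      L.mv χ * LinearMap.trace ℂ (jointEig L.A χ)
        (opU (q : ℂ) ((L.piece hq χ hχ).e 0) ((L.piece hq χ hχ).w 0) ^ n *
          (L.piece hq χ hχ).D) := by
  have hU : ∀ v ∈ jointEig L.A χ, opU (q : ℂ) (L.e 0) (L.w 0) v ∈ jointEig L.A χ := fun v hv =>
    mem_jointEig_of_commute L.AU hv
  have hD : ∀ v ∈ jointEig L.A χ, (L.S * L.τ) v ∈ jointEig L.A χ := fun v hv =>
    L.Sτ_stable hχ hv
  rw [L.diag.diag_pow hU hD (L.Mv χ)]
  have h1 : opU (q : ℂ) ((L.piece hq χ hχ).e 0) ((L.piece hq χ hχ).w 0) =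
      rs (opU (q : ℂ) (L.e 0) (L.w 0)) hU :=
    opU_rs (fun _ hv => mem_jointEig_of_commute (fun i => L.Ae i 0) hv)
      (fun _ hv => mem_jointEig_of_commute (fun i => L.Aw i 0) hv) hU
  rw [h1]
  rfl

/-- the trace on the part fixed by the three maximal compact subgroups -/
theorem diag_fixed (hq : 0 < q) {χ : I → ℝ} (hχ : ∀ i, χ (L.σ i) = χ i) :
    L.diag.diag (L.e 0 * L.e 1 * L.e 2 * (L.S * L.τ)) χ =
      LinearMap.trace ℂ (jointEig L.A χ)
        ((L.piece hq χ hχ).e 0 * (L.piece hq χ hχ).e 1 * (L.piece hq χ hχ).e 2 *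
          (L.piece hq χ hχ).D) := by
  have he : ∀ j, ∀ v ∈ jointEig L.A χ, L.e j v ∈ jointEig L.A χ := fun j v hv =>
    mem_jointEig_of_commute (fun i => L.Ae i j) hv
  have hT : ∀ v ∈ jointEig L.A χ,
      (L.e 0 * L.e 1 * L.e 2 * (L.S * L.τ)) v ∈ jointEig L.A χ := fun v hv =>
    he 0 _ (he 1 _ (he 2 _ (L.Sτ_stable hχ hv)))
  exact L.diag.diag_eq_trace hT

end SideL

namespace SideK

variable {q : ℝ} (K : SideK q H I)

/-- the piece of a system -/
def piece (hq : 0 < q) (χ : I → ℝ) : PieceK q (jointEig K.A χ) where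
  e := rs K.e fun _ hv => mem_jointEig_of_commute K.Ae hv
  w := rs K.w fun _ hv => mem_jointEig_of_commute K.Aw hv
  D := rs K.S fun _ hv => mem_jointEig_of_commute K.AS hv
  x := χ K.c / Real.sqrt q
  rel := rs_rel _ _ K.rel
  hC := by
    apply LinearMap.ext
    intro v
    apply Subtype.ext
    rw [coe_opC_rs, ← K.hC, v.2 K.c, mul_div_cancel₀ _ (Real.sqrt_pos.2 hq).ne']
    rfl
  De := rs_mul_eq K.Se
  Dw := rs_mul_eq K.Sw

theorem AU (i : I) : K.A i * opU (q : ℂ) K.e K.w = opU (q : ℂ) K.e K.w * K.A i := by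
  have h5 : K.A i * (((q : ℂ) + 1) • K.e - 1) = (((q : ℂ) + 1) • K.e - 1) * K.A i := by
    rw [mul_sub, sub_mul, mul_smul_comm, smul_mul_assoc, K.Ae, mul_one, one_mul]
  rw [opU, ← mul_assoc, h5, mul_assoc, K.Aw, ← mul_assoc]

theorem diag_piece (hq : 0 < q) (χ : I → ℝ) (n : ℕ) :
    K.diag.diag (K.M * (opU (q : ℂ) K.e K.w ^ n * K.S)) χ =
      K.mv χ * LinearMap.trace ℂ (jointEig K.A χ)
        (opU (q : ℂ) (K.piece hq χ).e (K.piece hq χ).w ^ n * (K.piece hq χ).D) := by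
  have hU : ∀ v ∈ jointEig K.A χ, opU (q : ℂ) K.e K.w v ∈ jointEig K.A χ := fun v hv =>
    mem_jointEig_of_commute K.AU hv
  have hD : ∀ v ∈ jointEig K.A χ, K.S v ∈ jointEig K.A χ := fun v hv =>
    mem_jointEig_of_commute K.AS hv
  rw [K.diag.diag_pow hU hD (K.Mv χ)]
  have h1 : opU (q : ℂ) (K.piece hq χ).e (K.piece hq χ).w = rs (opU (q : ℂ) K.e K.w) hU :=
    opU_rs (fun _ hv => mem_jointEig_of_commute K.Ae hv)
      (fun _ hv => mem_jointEig_of_commute K.Aw hv) hU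
  rw [h1]
  rfl

end SideK

theorem IsDiag.diag_bot (hA : IsDiag A) {χ : I → ℝ} (hχ : jointEig A χ = ⊥) (T : H →L[ℂ] H) :
    hA.diag T χ = 0 := by
  refine Finset.sum_eq_zero fun k _ => ?_
  have h1 := hA.vec_mem ⟨χ, k⟩
  simp only [hχ, Submodule.mem_bot] at h1
  rw [h1, inner_zero_left]

/-- from words to polynomials -/
theorem poly_of_words {X X' κ : Type*} (h : κ → X → ℝ) (h' : κ → X' → ℝ) (F : ℕ → X → ℂ)
    (F' : ℕ → X' → ℂ)
    (hs : ∀ (l : List κ) n, Summable fun x => (((l.map fun k => h k x).prod : ℝ) : ℂ) * F n x)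
    (hs' : ∀ (l : List κ) n,
      Summable fun x => (((l.map fun k => h' k x).prod : ℝ) : ℂ) * F' n x)
    (HW : ∀ l : List κ, ∃ n₀ : ℕ, ∀ n, n₀ ≤ n →
      ∑' x, (((l.map fun k => h k x).prod : ℝ) : ℂ) * F n x =
        ∑' x, (((l.map fun k => h' k x).prod : ℝ) : ℂ) * F' n x)
    (p : MvPolynomial κ ℝ) :
    (∀ n, Summable fun x => ((MvPolynomial.aeval (fun k => h k x) p : ℝ) : ℂ) * F n x) ∧
    (∀ n, Summable fun x => ((MvPolynomial.aeval (fun k => h' k x) p : ℝ) : ℂ) * F' n x) ∧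
    ∃ n₀ : ℕ, ∀ n, n₀ ≤ n →
      ∑' x, ((MvPolynomial.aeval (fun k => h k x) p : ℝ) : ℂ) * F n x =
        ∑' x, ((MvPolynomial.aeval (fun k => h' k x) p : ℝ) : ℂ) * F' n x := by
  induction p using MvPolynomial.induction_on' with
  | monomial u c =>
    have e1 : ∀ n, (fun x => ((MvPolynomial.aeval (fun k => h k x)
        (MvPolynomial.monomial u c) : ℝ) : ℂ) * F n x) =
        fun x => (c : ℂ) * (((((Finsupp.toMultiset u).toList.map fun k => h k x).prod : ℝ) : ℂ) *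
          F n x) := by
      intro n
      funext x
      rw [aeval_monomial_eq]
      push_cast
      ring
    have e2 : ∀ n, (fun x => ((MvPolynomial.aeval (fun k => h' k x)
        (MvPolynomial.monomial u c) : ℝ) : ℂ) * F' n x) =
        fun x => (c : ℂ) * (((((Finsupp.toMultiset u).toList.map fun k => h' k x).prod : ℝ) : ℂ) *
          F' n x) := by
      intro n
      funext x
      rw [aeval_monomial_eq]
      push_cast
      ring
    refine ⟨fun n => ?_, fun n => ?_, ?_⟩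
    · rw [e1]; exact (hs _ n).mul_left _
    · rw [e2]; exact (hs' _ n).mul_left _
    · obtain ⟨n₀, hn₀⟩ := HW (Finsupp.toMultiset u).toList
      refine ⟨n₀, fun n hn => ?_⟩
      rw [e1, e2, tsum_mul_left, tsum_mul_left, hn₀ n hn]
  | add p p' ih ih' =>
    obtain ⟨a1, a2, n₁, a3⟩ := ih
    obtain ⟨b1, b2, n₂, b3⟩ := ih'
    have e1 : ∀ n, (fun x => ((MvPolynomial.aeval (fun k => h k x) (p + p') : ℝ) : ℂ) * F n x) =
        fun x => ((MvPolynomial.aeval (fun k => h k x) p : ℝ) : ℂ) * F n x +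
          ((MvPolynomial.aeval (fun k => h k x) p' : ℝ) : ℂ) * F n x := by
      intro n
      funext x
      rw [map_add]
      push_cast
      ring
    have e2 : ∀ n, (fun x => ((MvPolynomial.aeval (fun k => h' k x) (p + p') : ℝ) : ℂ) *
        F' n x) =
        fun x => ((MvPolynomial.aeval (fun k => h' k x) p : ℝ) : ℂ) * F' n x +
          ((MvPolynomial.aeval (fun k => h' k x) p' : ℝ) : ℂ) * F' n x := by
      intro n
      funext x
      rw [map_add]
      push_cast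
      ring
    refine ⟨fun n => ?_, fun n => ?_, max n₁ n₂, fun n hn => ?_⟩
    · rw [e1]; exact (a1 n).add (b1 n)
    · rw [e2]; exact (a2 n).add (b2 n)
    · rw [e1, e2, (a1 n).tsum_add (b1 n), (a2 n).tsum_add (b2 n),
        a3 n (le_trans (le_max_left _ _) hn), b3 n (le_trans (le_max_right _ _) hn)]

variable {H' : Type*} [NormedAddCommGroup H'] [InnerProductSpace ℂ H'] [CompleteSpace H']
  {I' κ : Type*} {q : ℝ}

/-- **B9 in Hilbert spaces.** -/
theorem exists_eigenvector (hq : 0 < q) (L : SideL q H I) (K : SideK q H' I')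
    (a : κ → I) (a' : κ → I')
    (t0 : L.diag.Tr (L.M * (L.S * L.τ)))
    (t1 : L.diag.Tr (L.M * (opU (q : ℂ) (L.e 0) (L.w 0) * (L.S * L.τ))))
    (t0' : K.diag.Tr (K.M * K.S))
    (t1' : K.diag.Tr (K.M * (opU (q : ℂ) K.e K.w * K.S)))
    (HT : ∀ l : List κ, ∃ n₀ : ℕ, ∀ n, n₀ ≤ n →
      L.diag.tr ((l.map fun k => L.A (a k)).prod *
        (L.M * (opU (q : ℂ) (L.e 0) (L.w 0) ^ n * (L.S * L.τ)))) =
      K.diag.tr ((l.map fun k => K.A (a' k)).prod *
        (K.M * (opU (q : ℂ) K.e K.w ^ n * K.S))))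
    {y : κ → ℝ} {m₀ : ℂ} (hm₀ : m₀ ≠ 0)
    (hm : ∀ χ, (∀ i, χ (L.σ i) = χ i) → jointEig L.A χ ≠ ⊥ → χ (L.c 0) = 0 →
      (∀ k, χ (a k) = y k) → L.mv χ = m₀)
    (hb : ∀ χ, (∀ i, χ (L.σ i) = χ i) → jointEig L.A χ ≠ ⊥ → χ (L.c 0) = 0 →
      (∀ k, χ (a k) = y k) →
      ∃ b : ℝ, 0 ≤ b ∧ L.diag.diag (L.e 0 * L.e 1 * L.e 2 * (L.S * L.τ)) χ = b)
    {χ₀ : I → ℝ} (h₀σ : ∀ i, χ₀ (L.σ i) = χ₀ i) (h₀c : χ₀ (L.c 0) = 0)
    (h₀y : ∀ k, χ₀ (a k) = y k)
    (h₀b : L.diag.diag (L.e 0 * L.e 1 * L.e 2 * (L.S * L.τ)) χ₀ ≠ 0) :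
    ∃ χ' : I' → ℝ, χ' K.c = 0 ∧ (∀ k, χ' (a' k) = y k) ∧
      ∃ v ∈ jointEig K.A χ', v ≠ 0 ∧ K.e v = v := by
  classical
  have hsq : 0 < Real.sqrt q := Real.sqrt_pos.2 hq
  -- the index sets
  let ι := {χ : I → ℝ // (∀ i, χ (L.σ i) = χ i) ∧ jointEig L.A χ ≠ ⊥}
  let ι' := {χ : I' → ℝ // jointEig K.A χ ≠ ⊥}
  -- the diagonal sums
  let F : ℕ → (I → ℝ) → ℂ := fun n χ =>
    L.diag.diag (L.M * (opU (q : ℂ) (L.e 0) (L.w 0) ^ n * (L.S * L.τ))) χ
  let F' : ℕ → (I' → ℝ) → ℂ := fun n χ =>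
    K.diag.diag (K.M * (opU (q : ℂ) K.e K.w ^ n * K.S)) χ
  have T : ∀ n, L.diag.Tr (L.M * (opU (q : ℂ) (L.e 0) (L.w 0) ^ n * (L.S * L.τ))) :=
    fun n => L.diag.Tr_pow (L.rel 0) (L.hC 0) (L.AM (L.c 0)) t0 t1 n
  have T' : ∀ n, K.diag.Tr (K.M * (opU (q : ℂ) K.e K.w ^ n * K.S)) :=
    fun n => K.diag.Tr_pow K.rel K.hC (K.AM K.c) t0' t1' n
  -- support
  have hF : ∀ (l : List κ) n χ, ¬ ((∀ i, χ (L.σ i) = χ i) ∧ jointEig L.A χ ≠ ⊥) →
      (((l.map fun k => χ (a k)).prod : ℝ) : ℂ) * F n χ = 0 := by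
    intro l n χ hχ
    have h1 : F n χ = 0 := by
      by_cases h2 : jointEig L.A χ = ⊥
      · exact L.diag.diag_bot h2 _
      · have h3 : ¬ ∀ i, χ (L.σ i) = χ i := fun h3 => hχ ⟨h3, h2⟩
        have h4 : ∀ i, L.A i * (L.M * (opU (q : ℂ) (L.e 0) (L.w 0) ^ n * L.S)) =
            (L.M * (opU (q : ℂ) (L.e 0) (L.w 0) ^ n * L.S)) * L.A i := by
          intro i
          have c1 : Commute (L.A i) L.M := L.AM i
          have c2 : Commute (L.A i) (opU (q : ℂ) (L.e 0) (L.w 0)) := L.AU i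
          have c3 : Commute (L.A i) L.S := L.AS i
          exact c1.mul_right ((c2.pow_right n).mul_right c3)
        have h5 := L.diag_unstable h3 h4
        simp only [mul_assoc] at h5
        exact h5
    rw [h1, mul_zero]
  have hF' : ∀ (l : List κ) n χ, ¬ (jointEig K.A χ ≠ ⊥) →
      (((l.map fun k => χ (a' k)).prod : ℝ) : ℂ) * F' n χ = 0 := by
    intro l n χ hχ
    rw [not_not] at hχ
    have h1 : F' n χ = 0 := K.diag.diag_bot hχ _
    rw [h1, mul_zero]
  -- sums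
  have hW : ∀ (l : List κ) n, Summable fun χ : I → ℝ =>
      (((l.map fun k => χ (a k)).prod : ℝ) : ℂ) * F n χ := fun l n =>
    (L.diag.summable_diag (L.diag.Tr_word a l (T n))).congr fun χ => L.diag.diag_word a l _ χ
  have hW' : ∀ (l : List κ) n, Summable fun χ : I' → ℝ =>
      (((l.map fun k => χ (a' k)).prod : ℝ) : ℂ) * F' n χ := fun l n =>
    (K.diag.summable_diag (K.diag.Tr_word a' l (T' n))).congr fun χ =>
      K.diag.diag_word a' l _ χ
  have hE : ∀ (l : List κ) n, ∑' χ : ι, (((l.map fun k => χ.1 (a k)).prod : ℝ) : ℂ) * F n χ.1 =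
      L.diag.tr ((l.map fun k => L.A (a k)).prod *
        (L.M * (opU (q : ℂ) (L.e 0) (L.w 0) ^ n * (L.S * L.τ)))) := by
    intro l n
    rw [L.diag.tr_eq (L.diag.Tr_word a l (T n))]
    have h1 : (∑' χ, L.diag.diag ((l.map fun k => L.A (a k)).prod *
        (L.M * (opU (q : ℂ) (L.e 0) (L.w 0) ^ n * (L.S * L.τ)))) χ) =
        ∑' χ : I → ℝ, (((l.map fun k => χ (a k)).prod : ℝ) : ℂ) * F n χ :=
      tsum_congr fun χ => L.diag.diag_word a l _ χ
    rw [h1]
    refine tsum_subtype_eq_of_support_subset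
      (f := fun χ : I → ℝ => (((l.map fun k => χ (a k)).prod : ℝ) : ℂ) * F n χ)
      (s := {χ | (∀ i, χ (L.σ i) = χ i) ∧ jointEig L.A χ ≠ ⊥}) ?_
    intro χ hχ
    by_contra h2
    exact hχ (hF l n χ h2)
  have hE' : ∀ (l : List κ) n, ∑' χ : ι', (((l.map fun k => χ.1 (a' k)).prod : ℝ) : ℂ) *
      F' n χ.1 = K.diag.tr ((l.map fun k => K.A (a' k)).prod *
        (K.M * (opU (q : ℂ) K.e K.w ^ n * K.S))) := by
    intro l n
    rw [K.diag.tr_eq (K.diag.Tr_word a' l (T' n))]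
    have h1 : (∑' χ, K.diag.diag ((l.map fun k => K.A (a' k)).prod *
        (K.M * (opU (q : ℂ) K.e K.w ^ n * K.S))) χ) =
        ∑' χ : I' → ℝ, (((l.map fun k => χ (a' k)).prod : ℝ) : ℂ) * F' n χ :=
      tsum_congr fun χ => K.diag.diag_word a' l _ χ
    rw [h1]
    refine tsum_subtype_eq_of_support_subset
      (f := fun χ : I' → ℝ => (((l.map fun k => χ (a' k)).prod : ℝ) : ℂ) * F' n χ)
      (s := {χ | jointEig K.A χ ≠ ⊥}) ?_
    intro χ hχ
    by_contra h2
    exact hχ (hF' l n χ h2)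
  have hPW := poly_of_words (X := ι) (X' := ι') (fun k χ => χ.1 (a k)) (fun k χ => χ.1 (a' k))
    (fun n χ => F n χ.1) (fun n χ => F' n χ.1)
    (fun l n => (hW l n).subtype _) (fun l n => (hW' l n).subtype _)
    (fun l => by
      obtain ⟨n₀, hn₀⟩ := HT l
      refine ⟨n₀, fun n hn => ?_⟩
      rw [hE, hE', hn₀ n hn])
  have key := exists_transfer (ι := ι) (ι' := ι') (κ := κ) (V := fun χ => jointEig L.A χ.1)
    (V' := fun χ => jointEig K.A χ.1) hq (fun χ => L.piece hq χ.1 χ.2.1)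
    (fun χ => K.piece hq χ.1)
    (B := max (‖L.A (L.c 0)‖ / Real.sqrt q) (‖K.A K.c‖ / Real.sqrt q))
    (fun χ => by
      refine le_trans ?_ (le_max_left _ _)
      change |χ.1 (L.c 0) / Real.sqrt q| ≤ _
      rw [abs_div, abs_of_pos hsq]
      exact div_le_div_of_nonneg_right (L.diag.abs_le_norm χ.2.2 _) hsq.le)
    (fun χ => by
      refine le_trans ?_ (le_max_right _ _)
      change |χ.1 K.c / Real.sqrt q| ≤ _
      rw [abs_div, abs_of_pos hsq]
      exact div_le_div_of_nonneg_right (K.diag.abs_le_norm χ.2 _) hsq.le)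
    (h := fun k χ => χ.1 (a k)) (h' := fun k χ => χ.1 (a' k))
    (fun k => ⟨‖L.A (a k)‖, fun χ => L.diag.abs_le_norm χ.2.2 _⟩)
    (fun k => ⟨‖K.A (a' k)‖, fun χ => K.diag.abs_le_norm χ.2 _⟩)
    (m := fun χ => L.mv χ.1) (m' := fun χ => K.mv χ.1)
    (by
      refine ((L.diag.summable_diag (T 0)).subtype _).congr fun χ => ?_
      have h1 := L.diag_stable hq χ.2.1 0
      rw [pow_zero, one_mul] at h1
      exact h1)
    (by
      refine ((L.diag.summable_diag (T 1)).subtype _).congr fun χ => ?_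
      have h1 := L.diag_stable hq χ.2.1 1
      rw [pow_one, pow_one] at h1
      exact h1)
    (by
      refine ((K.diag.summable_diag (T' 0)).subtype _).congr fun χ => ?_
      have h1 := K.diag_piece hq χ.1 0
      rw [pow_zero, one_mul] at h1
      exact h1)
    (by
      refine ((K.diag.summable_diag (T' 1)).subtype _).congr fun χ => ?_
      have h1 := K.diag_piece hq χ.1 1
      rw [pow_one, pow_one] at h1
      exact h1)
    (by
      intro p
      obtain ⟨-, -, n₀, hn₀⟩ := hPW p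
      refine ⟨n₀, fun n hn => ?_⟩
      refine (tsum_congr fun χ => ?_).trans ((hn₀ n hn).trans (tsum_congr fun χ => ?_))
      · rw [← L.diag_stable hq χ.2.1 n]
      · rw [← K.diag_piece hq χ.1 n])
    (y := y) hm₀
    (fun χ hx hy => hm χ.1 χ.2.1 χ.2.2
      (by
        have h1 : χ.1 (L.c 0) / Real.sqrt q = 0 := hx
        exact (div_eq_zero_iff.1 h1).resolve_right hsq.ne') hy)
    (b := fun χ => (L.diag.diag (L.e 0 * L.e 1 * L.e 2 * (L.S * L.τ)) χ.1).re)
    (fun χ hx hy => by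
      have h1 : χ.1 (L.c 0) / Real.sqrt q = 0 := hx
      obtain ⟨b, hb0, hb1⟩ := hb χ.1 χ.2.1 χ.2.2
        ((div_eq_zero_iff.1 h1).resolve_right hsq.ne') hy
      rw [hb1, Complex.ofReal_re]
      exact ⟨hb0, by rw [← L.diag_fixed hq χ.2.1, hb1]⟩)
    (i₀ := ⟨χ₀, h₀σ, fun h => h₀b (L.diag.diag_bot h _)⟩)
    (by
      change χ₀ (L.c 0) / Real.sqrt q = 0
      rw [h₀c, zero_div])
    h₀y
    (by
      obtain ⟨b, hb0, hb1⟩ := hb χ₀ h₀σ (fun h => h₀b (L.diag.diag_bot h _)) h₀c h₀y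
      simp only
      rw [hb1, Complex.ofReal_re]
      refine lt_of_le_of_ne hb0 ?_
      rintro rfl
      apply h₀b
      rw [hb1, Complex.ofReal_zero])
  obtain ⟨χ', hx, hy, v, hv0, hv⟩ := key
  refine ⟨χ'.1, ?_, hy, v, v.2, ?_, ?_⟩
  · have h1 : χ'.1 K.c / Real.sqrt q = 0 := hx
    exact (div_eq_zero_iff.1 h1).resolve_right hsq.ne'
  · intro h
    exact hv0 (Subtype.ext h)
  · exact congrArg (fun z : jointEig K.A χ'.1 => (z : H')) hv

end Fermat.Agent.LT.Iso
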