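import Mathlib

/-!
# Isolation of a system of eigenvalues

Let `a : ι → ℂ` be summable and `h k : ι → ℝ` bounded functions. If `∑ i, p (h i) * a i = 0` for
all polynomials `p` in the `h k`, then the sum of `a i` over the `i` with `h k i = y k` for all `k`
is zero, for every `y`.
-/

set_option autoImplicit false

noncomputable section

open Filter Topology

namespace Fermat.Agent.LT.Iso

variable {ι κ : Type*}

/-- the polynomial `1 - c (X - y)²` -/
def bump (k : κ) (c y : ℝ) : MvPolynomial κ ℝ :=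
  1 - MvPolynomial.C c * (MvPolynomial.X k - MvPolynomial.C y) ^ 2

theorem aeval_bump (h : κ → ℝ) (k : κ) (c y : ℝ) :
    MvPolynomial.aeval h (bump k c y) = 1 - c * (h k - y) ^ 2 := by
  simp [bump]

theorem exists_const (h : ι → ℝ) (hbd : ∃ C, ∀ i, |h i| ≤ C) (y : ℝ) :
    ∃ c : ℝ, 0 < c ∧ ∀ i, c * (h i - y) ^ 2 ≤ 1 := by
  obtain ⟨C, hC⟩ := hbd
  refine ⟨(1 + (|C| + |y|) ^ 2)⁻¹, by positivity, fun i => ?_⟩
  have h1 : |h i - y| ≤ |C| + |y| :=
    (abs_sub _ _).trans (add_le_add ((hC i).trans (le_abs_self _)) le_rfl)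
  have h2 : (h i - y) ^ 2 ≤ (|C| + |y|) ^ 2 := by
    rw [← sq_abs (h i - y)]
    gcongr
  rw [inv_mul_le_iff₀ (by positivity)]
  linarith

/-- **Isolation of a system of eigenvalues**, finitely many functions in front. -/
theorem isolate_finset {a : ι → ℂ} (ha : Summable a) {h : κ → ι → ℝ}
    (hbd : ∀ k, ∃ C, ∀ i, |h k i| ≤ C)
    (H : ∀ p : MvPolynomial κ ℝ, ∑' i, ((MvPolynomial.aeval (fun k => h k i) p : ℝ) : ℂ) * a i = 0)
    (y : κ → ℝ) (s : Finset κ) :
    ∑' i, (if ∀ k ∈ s, h k i = y k then a i else 0) = 0 := by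
  classical
  choose c hc hc1 using fun k => exists_const (h k) (hbd k) (y k)
  set g : ι → ℝ := fun i => ∏ k ∈ s, (1 - c k * (h k i - y k) ^ 2) with hg
  have hg0 : ∀ i, 0 ≤ g i := fun i => Finset.prod_nonneg fun k _ => by linarith [hc1 k i]
  have hg1 : ∀ i, g i ≤ 1 := fun i => Finset.prod_le_one (fun k _ => by linarith [hc1 k i])
    fun k _ => by
      have : 0 ≤ c k * (h k i - y k) ^ 2 := by have := hc k; positivity
      linarith
  have hg1' : ∀ i, (∀ k ∈ s, h k i = y k) → g i = 1 := by
    intro i hi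
    refine Finset.prod_eq_one fun k hk => ?_
    rw [hi k hk, sub_self]
    ring
  have hglt : ∀ i, (¬ ∀ k ∈ s, h k i = y k) → g i < 1 := by
    intro i hi
    push Not at hi
    obtain ⟨k, hk, hne⟩ := hi
    rw [hg]
    simp only
    rw [← Finset.mul_prod_erase s _ hk]
    have h2 : (1 - c k * (h k i - y k) ^ 2) < 1 := by
      have h3 : 0 < (h k i - y k) ^ 2 := by
        have := sub_ne_zero.2 hne
        positivity
      have := mul_pos (hc k) h3
      linarith
    have h4 : ∏ k' ∈ s.erase k, (1 - c k' * (h k' i - y k') ^ 2) ≤ 1 :=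
      Finset.prod_le_one (fun k _ => by linarith [hc1 k i]) fun k _ => by
        have : 0 ≤ c k * (h k i - y k) ^ 2 := by have := hc k; positivity
        linarith
    have h5 : 0 ≤ ∏ k' ∈ s.erase k, (1 - c k' * (h k' i - y k') ^ 2) :=
      Finset.prod_nonneg fun k _ => by linarith [hc1 k i]
    calc (1 - c k * (h k i - y k) ^ 2) * ∏ k' ∈ s.erase k, (1 - c k' * (h k' i - y k') ^ 2)
        ≤ (1 - c k * (h k i - y k) ^ 2) * 1 := by
          refine mul_le_mul_of_nonneg_left h4 ?_
          linarith [hc1 k i]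
      _ < 1 := by rw [mul_one]; exact h2
  have hp : ∀ m : ℕ, ∑' i, ((g i ^ m : ℝ) : ℂ) * a i = 0 := by
    intro m
    have h1 := H ((∏ k ∈ s, bump k (c k) (y k)) ^ m)
    simp only [map_pow, map_prod, aeval_bump] at h1
    exact h1
  have hlim : Tendsto (fun m : ℕ => ∑' i, ((g i ^ m : ℝ) : ℂ) * a i) atTop
      (𝓝 (∑' i, (if ∀ k ∈ s, h k i = y k then a i else 0))) := by
    refine tendsto_tsum_of_dominated_convergence (bound := fun i => ‖a i‖) ha.norm ?_ ?_
    · intro i
      by_cases hi : ∀ k ∈ s, h k i = y k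
      · rw [if_pos hi]
        simp only [hg1' i hi, one_pow, Complex.ofReal_one, one_mul]
        exact tendsto_const_nhds
      · rw [if_neg hi]
        have h1 := tendsto_pow_atTop_nhds_zero_of_lt_one (hg0 i) (hglt i hi)
        have h2 : Tendsto (fun m : ℕ => ((g i ^ m : ℝ) : ℂ)) atTop (𝓝 ((0 : ℝ) : ℂ)) :=
          (Complex.continuous_ofReal.tendsto 0).comp h1
        have h3 := h2.mul_const (a i)
        rwa [Complex.ofReal_zero, zero_mul] at h3
    · refine Eventually.of_forall fun m i => ?_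
      rw [norm_mul, Complex.norm_real, Real.norm_of_nonneg (pow_nonneg (hg0 i) m)]
      exact mul_le_of_le_one_left (norm_nonneg _) (pow_le_one₀ (hg0 i) (hg1 i))
  simp only [hp] at hlim
  exact (tendsto_nhds_unique hlim tendsto_const_nhds)

/-- **Isolation of a system of eigenvalues.** -/
theorem isolate_system {a : ι → ℂ} (ha : Summable a) {h : κ → ι → ℝ}
    (hbd : ∀ k, ∃ C, ∀ i, |h k i| ≤ C)
    (H : ∀ p : MvPolynomial κ ℝ, ∑' i, ((MvPolynomial.aeval (fun k => h k i) p : ℝ) : ℂ) * a i = 0)
    (y : κ → ℝ) :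
    ∑' i, (@ite _ (∀ k, h k i = y k) (Classical.propDecidable _) (a i) 0) = 0 := by
  classical
  have hlim : Tendsto (fun s : Finset κ => ∑' i, (if ∀ k ∈ s, h k i = y k then a i else 0)) atTop
      (𝓝 (∑' i, (if ∀ k, h k i = y k then a i else 0))) := by
    refine tendsto_tsum_of_dominated_convergence (bound := fun i => ‖a i‖) ha.norm ?_ ?_
    · intro i
      by_cases hi : ∀ k, h k i = y k
      · rw [if_pos hi]
        refine tendsto_const_nhds.congr fun s => ?_
        rw [if_pos fun k _ => hi k]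
      · rw [if_neg hi]
        push Not at hi
        obtain ⟨k, hk⟩ := hi
        refine tendsto_const_nhds.congr' ?_
        filter_upwards [eventually_ge_atTop {k}] with s hs
        rw [if_neg fun h2 => hk (h2 k (hs (Finset.mem_singleton_self k)))]
    · refine Eventually.of_forall fun s i => ?_
      split_ifs
      · exact le_rfl
      · simp
  simp only [isolate_finset ha hbd H y] at hlim
  have h2 := tendsto_nhds_unique hlim tendsto_const_nhds
  convert h2

end Fermat.Agent.LT.Iso
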