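import Fermat.Agent.LT.Iso.HalfDisc
import Fermat.Agent.LT.Iso.Separate

/-!
# Comparison of two families: isolation of one system

Two sides, indexed by `ι` and `ι'`. `c n i` is the trace of `(q^(-1/2) U)ⁿ Φ τ` on the `i`-th
eigenspace, `x i` the (normalised) eigenvalue at the regular place, `h k i` the other eigenvalues.
If for each polynomial `p` the two sums `∑ p(h i) c n i` agree for large `n`, then for each system
`y` the parts with `x i = 0` and `h i = y` agree.
-/

set_option autoImplicit false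

noncomputable section

open Filter Topology

namespace Fermat.Agent.LT.Iso

open Classical in
/-- the part of a family where `x = 0` and `h = y` -/
def part {ι κ : Type*} (x : ι → ℝ) (h : κ → ι → ℝ) (y : κ → ℝ) (a : ι → ℂ) : ℂ :=
  ∑' i, if x i = 0 ∧ ∀ k, h k i = y k then a i else 0

section One

variable {ι κ : Type*} {x : ι → ℝ} {B : ℝ} (hB : ∀ i, |x i| ≤ B) {h : κ → ι → ℝ}
  (hbd : ∀ k, ∃ C, ∀ i, |h k i| ≤ C) {c : ℕ → ι → ℂ}
  (h0 : Summable (c 0)) (h1 : Summable (c 1))
  (hrec : ∀ n i, c (n + 2) i = x i * c (n + 1) i - c n i)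

include hbd in
theorem aeval_bounded (p : MvPolynomial κ ℝ) :
    ∃ C, ∀ i, |MvPolynomial.aeval (fun k => h k i) p| ≤ C := by
  induction p using MvPolynomial.induction_on with
  | C a => exact ⟨|a|, fun i => by simp⟩
  | add p q hp hq =>
    obtain ⟨C, hC⟩ := hp
    obtain ⟨D, hD⟩ := hq
    refine ⟨C + D, fun i => ?_⟩
    rw [map_add]
    exact (abs_add_le _ _).trans (add_le_add (hC i) (hD i))
  | mul_X p k hp =>
    obtain ⟨C, hC⟩ := hp
    obtain ⟨D, hD⟩ := hbd k
    refine ⟨C * D, fun i => ?_⟩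
    rw [map_mul, MvPolynomial.aeval_X, abs_mul]
    have := (abs_nonneg _).trans (hC i)
    exact mul_le_mul (hC i) (hD i) (abs_nonneg _) this

theorem summable_mul_bounded {a : ι → ℂ} (ha : Summable a) {f : ι → ℝ}
    (hf : ∃ C, ∀ i, |f i| ≤ C) : Summable fun i => (f i : ℂ) * a i := by
  obtain ⟨C, hC⟩ := hf
  refine Summable.of_norm_bounded (g := fun i => C * ‖a i‖) (ha.norm.mul_left C) fun i => ?_
  rw [norm_mul, Complex.norm_real]
  exact mul_le_mul_of_nonneg_right (hC i) (norm_nonneg _)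

include hB hbd h0 h1 hrec in
/-- one signed family -/
theorem part_eq_zero
    (H : ∀ p : MvPolynomial κ ℝ, ∃ n₀ : ℕ, ∀ n, n₀ ≤ n →
      ∑' i, ((MvPolynomial.aeval (fun k => h k i) p : ℝ) : ℂ) * c n i = 0) (y : κ → ℝ) :
    part x h y (c 0) = 0 := by
  classical
  set a : ι → ℂ := fun i => if x i = 0 then c 0 i else 0 with ha
  have has : Summable a := by
    refine Summable.of_norm_bounded h0.norm fun i => ?_
    rw [ha]
    simp only
    split_ifs
    · exact le_rfl
    · simp
  have key : ∀ p : MvPolynomial κ ℝ,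
      ∑' i, ((MvPolynomial.aeval (fun k => h k i) p : ℝ) : ℂ) * a i = 0 := by
    intro p
    obtain ⟨n₀, hn₀⟩ := H p
    have h2 := isolate_zero hB
      (c := fun n i => ((MvPolynomial.aeval (fun k => h k i) p : ℝ) : ℂ) * c n i)
      (summable_mul_bounded h0 (aeval_bounded hbd p))
      (summable_mul_bounded h1 (aeval_bounded hbd p))
      (fun n i => by rw [hrec]; ring) hn₀
    rw [← h2]
    refine tsum_congr fun i => ?_
    rw [ha]
    simp only
    split_ifs
    · rfl
    · rw [mul_zero]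
  have h3 := isolate_system has hbd key y
  rw [part]
  refine (tsum_congr fun i => ?_).trans h3
  by_cases hx : x i = 0
  · by_cases hy : ∀ k, h k i = y k
    · rw [if_pos ⟨hx, hy⟩, if_pos hy]
      exact (if_pos hx).symm
    · rw [if_neg (fun h => hy h.2), if_neg hy]
  · rw [if_neg (fun h => hx h.1)]
    by_cases hy : ∀ k, h k i = y k
    · rw [if_pos hy]
      exact (if_neg hx).symm
    · rw [if_neg hy]

end One

section Two

variable {ι ι' κ : Type*} {x : ι → ℝ} {x' : ι' → ℝ} {B B' : ℝ} (hB : ∀ i, |x i| ≤ B)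
  (hB' : ∀ i, |x' i| ≤ B') {h : κ → ι → ℝ} {h' : κ → ι' → ℝ}
  (hbd : ∀ k, ∃ C, ∀ i, |h k i| ≤ C) (hbd' : ∀ k, ∃ C, ∀ i, |h' k i| ≤ C)
  {c : ℕ → ι → ℂ} {c' : ℕ → ι' → ℂ}
  (h0 : Summable (c 0)) (h1 : Summable (c 1)) (h0' : Summable (c' 0)) (h1' : Summable (c' 1))
  (hrec : ∀ n i, c (n + 2) i = x i * c (n + 1) i - c n i)
  (hrec' : ∀ n i, c' (n + 2) i = x' i * c' (n + 1) i - c' n i)
  (H : ∀ p : MvPolynomial κ ℝ, ∃ n₀ : ℕ, ∀ n, n₀ ≤ n →
    ∑' i, ((MvPolynomial.aeval (fun k => h k i) p : ℝ) : ℂ) * c n i =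
      ∑' i, ((MvPolynomial.aeval (fun k => h' k i) p : ℝ) : ℂ) * c' n i)

include hrec in
theorem summable_all (hB : ∀ i, |x i| ≤ B) (h0 : Summable (c 0)) (h1 : Summable (c 1)) (n : ℕ) :
    Summable (c n) :=
  Summable.of_norm_bounded (summable_bound h0 h1 ((1 + B) ^ n)) (norm_c_le hB hrec n)

include hB hB' hbd hbd' h0 h1 h0' h1' hrec hrec' H in
/-- **Comparison.** -/
theorem part_eq (y : κ → ℝ) : part x h y (c 0) = part x' h' y (c' 0) := by
  classical
  -- the signed family on the disjoint union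
  set X : ι ⊕ ι' → ℝ := Sum.elim x x' with hX
  set Hh : κ → ι ⊕ ι' → ℝ := fun k => Sum.elim (h k) (h' k) with hHh
  set Cc : ℕ → ι ⊕ ι' → ℂ := fun n => Sum.elim (c n) (fun i => - c' n i) with hCc
  have hsum : ∀ {f : ι → ℂ} {g : ι' → ℂ}, Summable f → Summable g →
      Summable (Sum.elim f g) ∧ ∑' s, Sum.elim f g s = ∑' i, f i + ∑' i, g i := by
    intro f g hf hg
    have h2 : HasSum (Sum.elim f g) (∑' i, f i + ∑' i, g i) := by
      have e1 : HasSum (Sum.elim f g ∘ Sum.inl) (∑' i, f i) := hf.hasSum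
      have e2 : HasSum (Sum.elim f g ∘ Sum.inr) (∑' i, g i) := hg.hasSum
      exact HasSum.sum e1 e2
    exact ⟨h2.summable, h2.tsum_eq⟩
  have key := part_eq_zero (x := X) (h := Hh) (c := Cc) (B := max B B')
    (by
      rintro (i | i)
      · exact (hB i).trans (le_max_left _ _)
      · exact (hB' i).trans (le_max_right _ _))
    (by
      intro k
      obtain ⟨C, hC⟩ := hbd k
      obtain ⟨D, hD⟩ := hbd' k
      refine ⟨max C D, ?_⟩
      rintro (i | i)
      · exact (hC i).trans (le_max_left _ _)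
      · exact (hD i).trans (le_max_right _ _))
    (hsum h0 h0'.neg).1 (hsum h1 h1'.neg).1
    (by
      rintro n (i | i)
      · exact hrec n i
      · change - c' (n + 2) i = x' i * - c' (n + 1) i - - c' n i
        rw [hrec']
        ring)
    (by
      intro p
      obtain ⟨n₀, hn₀⟩ := H p
      refine ⟨n₀, fun n hn => ?_⟩
      have e1 : (fun s : ι ⊕ ι' => ((MvPolynomial.aeval (fun k => Hh k s) p : ℝ) : ℂ) * Cc n s) =
          Sum.elim (fun i => ((MvPolynomial.aeval (fun k => h k i) p : ℝ) : ℂ) * c n i)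
            (fun i => - (((MvPolynomial.aeval (fun k => h' k i) p : ℝ) : ℂ) * c' n i)) := by
        ext s
        rcases s with i | i
        · rfl
        · exact mul_neg _ _
      have e2 := (hsum
        (summable_mul_bounded (summable_all hrec hB h0 h1 n) (aeval_bounded hbd p))
        (summable_mul_bounded (summable_all hrec' hB' h0' h1' n) (aeval_bounded hbd' p)).neg).2
      rw [e1, e2, tsum_neg, hn₀ n hn, add_neg_cancel]) y
  -- split again
  have e3 : (fun s : ι ⊕ ι' => if X s = 0 ∧ ∀ k, Hh k s = y k then Cc 0 s else 0) =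
      Sum.elim (fun i => if x i = 0 ∧ ∀ k, h k i = y k then c 0 i else 0)
        (fun i => - (if x' i = 0 ∧ ∀ k, h' k i = y k then c' 0 i else 0)) := by
    ext s
    rcases s with i | i
    · rfl
    · change (if x' i = 0 ∧ ∀ k, h' k i = y k then - c' 0 i else 0) =
        - (if x' i = 0 ∧ ∀ k, h' k i = y k then c' 0 i else 0)
      split_ifs
      · rfl
      · rw [neg_zero]
  have s1 : Summable fun i => if x i = 0 ∧ ∀ k, h k i = y k then c 0 i else 0 := by
    refine Summable.of_norm_bounded h0.norm fun i => ?_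
    split_ifs
    · exact le_rfl
    · simp
  have s2 : Summable fun i => if x' i = 0 ∧ ∀ k, h' k i = y k then c' 0 i else 0 := by
    refine Summable.of_norm_bounded h0'.norm fun i => ?_
    split_ifs
    · exact le_rfl
    · simp
  rw [part] at key
  have e4 : ∑' s : ι ⊕ ι', (if X s = 0 ∧ ∀ k, Hh k s = y k then Cc 0 s else 0) =
      part x h y (c 0) + - part x' h' y (c' 0) := by
    rw [e3, (hsum s1 s2.neg).2, tsum_neg]
    rfl
  rw [show ∑' s : ι ⊕ ι', (if X s = 0 ∧ ∀ k, Hh k s = y k then Cc 0 s else 0) = 0 from by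
    convert key] at e4
  exact (add_neg_eq_zero.1 e4.symm)

include hB hB' hbd hbd' h0 h1 h0' h1' hrec hrec' H in
/-- **Transfer of a system.** -/
theorem exists_index (y : κ → ℝ) (hy : part x h y (c 0) ≠ 0) :
    ∃ j, x' j = 0 ∧ (∀ k, h' k j = y k) ∧ c' 0 j ≠ 0 := by
  classical
  rw [part_eq hB hB' hbd hbd' h0 h1 h0' h1' hrec hrec' H y] at hy
  by_contra hcon
  push Not at hcon
  apply hy
  rw [part]
  refine (tsum_congr fun j => ?_).trans tsum_zero
  split_ifs with h2
  · exact hcon j h2.1 h2.2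
  · rfl

end Two

/-- positivity of the part -/
theorem part_ne_zero {ι κ : Type*} {x : ι → ℝ} {h : κ → ι → ℝ} {y : κ → ℝ} {a : ι → ℂ} {s : ℂ}
    (ha : Summable a) (hs : s ≠ 0) {b : ι → ℝ}
    (hab : ∀ i, x i = 0 → (∀ k, h k i = y k) → a i = s * b i)
    (hb : ∀ i, x i = 0 → (∀ k, h k i = y k) → 0 ≤ b i)
    {i₀ : ι} (hx : x i₀ = 0) (hy : ∀ k, h k i₀ = y k) (hb0 : 0 < b i₀) :
    part x h y a ≠ 0 := by
  classical
  set g : ι → ℝ := fun i => if x i = 0 ∧ ∀ k, h k i = y k then b i else 0 with hg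
  have hg0 : ∀ i, 0 ≤ g i := by
    intro i
    rw [hg]
    simp only
    split_ifs with h2
    · exact hb i h2.1 h2.2
    · exact le_rfl
  have e1 : ∀ i, (if x i = 0 ∧ ∀ k, h k i = y k then a i else 0) = s * (g i : ℂ) := by
    intro i
    rw [hg]
    simp only
    split_ifs with h2
    · exact hab i h2.1 h2.2
    · simp
  have hgs : Summable g := by
    have h3 : Summable fun i => s * (g i : ℂ) := by
      refine (Summable.of_norm_bounded ha.norm fun i => ?_ :
        Summable fun i => if x i = 0 ∧ ∀ k, h k i = y k then a i else 0).congr e1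
      split_ifs
      · exact le_rfl
      · simp
    have h4 : Summable fun i => (g i : ℂ) := (summable_mul_left_iff hs).1 h3
    exact Complex.summable_ofReal.1 h4
  have h5 : part x h y a = s * ((∑' i, g i : ℝ) : ℂ) := by
    rw [part, Complex.ofReal_tsum, ← tsum_mul_left]
    exact tsum_congr e1
  rw [h5]
  refine mul_ne_zero hs ?_
  have h6 : 0 < ∑' i, g i := by
    refine hgs.tsum_pos hg0 i₀ ?_
    rw [hg]
    simp only
    rw [if_pos ⟨hx, hy⟩]
    exact hb0
  exact_mod_cast h6.ne'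

end Fermat.Agent.LT.Iso
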