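import Fermat.Agent.LT.Iso.Bridge

/-!
# The isolation theorem, with the common factor given by a polynomial in the letters

`CoreL`, `CoreK` : the two sides without the common factor. `evW A a P = ∑ c_l word_l(A ∘ a)` for
`P : List κ →₀ ℂ`. `CoreL.exists_eigenvector` : `exists_eigenvector` with `M = P(letters)`.
-/

set_option autoImplicit false
set_option linter.unusedSectionVars false

noncomputable section

open Filter Topology Module
open scoped InnerProductSpace

namespace Fermat.Agent.LT.Iso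

open Fermat.Agent.LT

variable {H : Type*} [NormedAddCommGroup H] [InnerProductSpace ℂ H] [CompleteSpace H]
  {I κ : Type*} {A : I → H →L[ℂ] H}

/-- Two operators which agree on the pieces are equal. -/
theorem IsDiag.ext_clm (hA : IsDiag A) {T U : H →L[ℂ] H}
    (h : ∀ χ : I → ℝ, ∀ v ∈ jointEig A χ, T v = U v) : T = U := by
  have h1 : (⨆ χ : I → ℝ, jointEig A χ) ≤ LinearMap.ker ((T - U : H →L[ℂ] H) : H →ₗ[ℂ] H) :=
    iSup_le fun χ v hv => by
      rw [LinearMap.mem_ker]
      change T v - U v = 0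
      rw [h χ v hv, sub_self]
  have h2 : IsClosed ((LinearMap.ker ((T - U : H →L[ℂ] H) : H →ₗ[ℂ] H) : Submodule ℂ H) : Set H) :=
    (T - U).isClosed_ker
  have h3 := Submodule.topologicalClosure_minimal _ h1 h2
  rw [hA.dense] at h3
  ext v
  have h4 := h3 (Submodule.mem_top : v ∈ (⊤ : Submodule ℂ H))
  rw [LinearMap.mem_ker] at h4
  exact sub_eq_zero.1 h4

/-- The members of the family commute. -/
theorem IsDiag.comm (hA : IsDiag A) (i j : I) : A i * A j = A j * A i := by
  refine hA.ext_clm fun χ v hv => ?_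
  change A i (A j v) = A j (A i v)
  rw [hv i, hv j, map_smul, map_smul, hv i, hv j, smul_comm]

/-- the value of a polynomial at a family of operators -/
def evW (A : I → H →L[ℂ] H) (a : κ → I) (P : List κ →₀ ℂ) : H →L[ℂ] H :=
  P.sum fun l c => c • (l.map fun k => A (a k)).prod

/-- the value of a polynomial at a system of numbers -/
def evN (y : κ → ℝ) (P : List κ →₀ ℂ) : ℂ :=
  P.sum fun l c => c * (((l.map y).prod : ℝ) : ℂ)

theorem word_apply {a : κ → I} {χ : I → ℝ} {v : H} (hv : v ∈ jointEig A χ) (l : List κ) :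
    (l.map fun k => A (a k)).prod v = (((l.map fun k => χ (a k)).prod : ℝ) : ℂ) • v := by
  induction l with
  | nil => simp
  | cons k l ih =>
    rw [List.map_cons, List.prod_cons, List.map_cons, List.prod_cons]
    change A (a k) ((l.map fun k => A (a k)).prod v) = _
    rw [ih, map_smul, hv (a k), smul_smul, Complex.ofReal_mul, mul_comm]

theorem evW_apply {a : κ → I} {χ : I → ℝ} {v : H} (hv : v ∈ jointEig A χ) (P : List κ →₀ ℂ) :
    evW A a P v = evN (fun k => χ (a k)) P • v := by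
  unfold evW evN
  rw [Finsupp.sum, Finsupp.sum, _root_.sum_apply, Finset.sum_smul]
  refine Finset.sum_congr rfl fun l _ => ?_
  rw [_root_.smul_apply, word_apply hv, smul_smul]

theorem IsDiag.comm_evW (hA : IsDiag A) (a : κ → I) (P : List κ →₀ ℂ) (i : I) :
    A i * evW A a P = evW A a P * A i := by
  refine hA.ext_clm fun χ v hv => ?_
  change A i (evW A a P v) = evW A a P (A i v)
  rw [evW_apply hv, map_smul, hv i, map_smul, evW_apply hv, smul_comm]

/-- The `L`-side. -/
structure CoreL (q : ℝ) (H : Type*) [NormedAddCommGroup H] [InnerProductSpace ℂ H]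
    [CompleteSpace H] (I : Type*) where
  /-- the commuting family -/
  A : I → H →L[ℂ] H
  /-- vectors fixed by the maximal compact subgroups at the three places above `u` -/
  e : Fin 3 → H →L[ℂ] H
  /-- Atkin-Lehner elements -/
  w : Fin 3 → H →L[ℂ] H
  /-- bad places -/
  S : H →L[ℂ] H
  /-- the Galois automorphism -/
  τ : H →L[ℂ] H
  /-- the permutation of the indices -/
  σ : Equiv.Perm I
  /-- the indices of the central elements at the places above `u` -/
  c : Fin 3 → I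
  diag : IsDiag A
  rel : ∀ j, IwaRel (e j) (w j)
  hC : ∀ j, A (c j) = opC (q : ℂ) (e j) (w j)
  ee : ∀ i j, i ≠ j → e i * e j = e j * e i
  ew : ∀ i j, i ≠ j → e i * w j = w j * e i
  ww : ∀ i j, i ≠ j → w i * w j = w j * w i
  Ae : ∀ i j, A i * e j = e j * A i
  Aw : ∀ i j, A i * w j = w j * A i
  AS : ∀ i, A i * S = S * A i
  Se : ∀ j, S * e j = e j * S
  Sw : ∀ j, S * w j = w j * S
  τA : ∀ i, τ * A i = A (σ i) * τ
  τe : ∀ j, τ * e j = e (j + 1) * τ
  τw : ∀ j, τ * w j = w (j + 1) * τ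
  σc : ∀ j, σ (c j) = c (j + 1)

/-- The `K`-side. -/
structure CoreK (q : ℝ) (H : Type*) [NormedAddCommGroup H] [InnerProductSpace ℂ H]
    [CompleteSpace H] (I : Type*) where
  /-- the commuting family -/
  A : I → H →L[ℂ] H
  /-- vectors fixed by the maximal compact subgroup at `u` -/
  e : H →L[ℂ] H
  /-- Atkin-Lehner element -/
  w : H →L[ℂ] H
  /-- bad places -/
  S : H →L[ℂ] H
  /-- the index of the central element -/
  c : I
  diag : IsDiag A
  rel : IwaRel e w
  hC : A c = opC (q : ℂ) e w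
  Ae : ∀ i, A i * e = e * A i
  Aw : ∀ i, A i * w = w * A i
  AS : ∀ i, A i * S = S * A i
  Se : S * e = e * S
  Sw : S * w = w * S

variable {q : ℝ}

/-- add the common factor -/
def CoreL.toSideL (L : CoreL q H I) (a : κ → I) (P : List κ →₀ ℂ) : SideL q H I where
  A := L.A
  e := L.e
  w := L.w
  S := L.S
  τ := L.τ
  M := evW L.A a P
  σ := L.σ
  c := L.c
  mv χ := evN (fun k => χ (a k)) P
  diag := L.diag
  rel := L.rel
  hC := L.hC
  ee := L.ee
  ew := L.ew
  ww := L.ww
  Ae := L.Ae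
  Aw := L.Aw
  AS := L.AS
  Se := L.Se
  Sw := L.Sw
  τA := L.τA
  τe := L.τe
  τw := L.τw
  σc := L.σc
  AM i := L.diag.comm_evW a P i
  Mv _ _ hv := evW_apply hv P

/-- add the common factor -/
def CoreK.toSideK (K : CoreK q H I) (a : κ → I) (P : List κ →₀ ℂ) : SideK q H I where
  A := K.A
  e := K.e
  w := K.w
  S := K.S
  M := evW K.A a P
  c := K.c
  mv χ := evN (fun k => χ (a k)) P
  diag := K.diag
  rel := K.rel
  hC := K.hC
  Ae := K.Ae
  Aw := K.Aw
  AS := K.AS
  Se := K.Se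
  Sw := K.Sw
  AM i := K.diag.comm_evW a P i
  Mv _ _ hv := evW_apply hv P

variable {H' : Type*} [NormedAddCommGroup H'] [InnerProductSpace ℂ H'] [CompleteSpace H']
  {I' : Type*}

/-- **B9, final form.** `κ` : the common letters; `P` : the common factor. -/
theorem CoreL.exists_eigenvector (hq : 0 < q) (L : CoreL q H I) (K : CoreK q H' I')
    (a : κ → I) (a' : κ → I') (P : List κ →₀ ℂ)
    (t0 : L.diag.Tr (evW L.A a P * (L.S * L.τ)))
    (t1 : L.diag.Tr (evW L.A a P * (opU (q : ℂ) (L.e 0) (L.w 0) * (L.S * L.τ))))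
    (t0' : K.diag.Tr (evW K.A a' P * K.S))
    (t1' : K.diag.Tr (evW K.A a' P * (opU (q : ℂ) K.e K.w * K.S)))
    (HT : ∀ l : List κ, ∃ n₀ : ℕ, ∀ n, n₀ ≤ n →
      L.diag.tr ((l.map fun k => L.A (a k)).prod *
        (evW L.A a P * (opU (q : ℂ) (L.e 0) (L.w 0) ^ n * (L.S * L.τ)))) =
      K.diag.tr ((l.map fun k => K.A (a' k)).prod *
        (evW K.A a' P * (opU (q : ℂ) K.e K.w ^ n * K.S))))
    {y : κ → ℝ} (hP : evN y P ≠ 0)
    (hb : ∀ χ, (∀ i, χ (L.σ i) = χ i) → jointEig L.A χ ≠ ⊥ → χ (L.c 0) = 0 →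
      (∀ k, χ (a k) = y k) →
      ∃ b : ℝ, 0 ≤ b ∧ L.diag.diag (L.e 0 * L.e 1 * L.e 2 * (L.S * L.τ)) χ = b)
    {χ₀ : I → ℝ} (h₀σ : ∀ i, χ₀ (L.σ i) = χ₀ i) (h₀c : χ₀ (L.c 0) = 0)
    (h₀y : ∀ k, χ₀ (a k) = y k)
    (h₀b : L.diag.diag (L.e 0 * L.e 1 * L.e 2 * (L.S * L.τ)) χ₀ ≠ 0) :
    ∃ χ' : I' → ℝ, χ' K.c = 0 ∧ (∀ k, χ' (a' k) = y k) ∧
      ∃ v ∈ jointEig K.A χ', v ≠ 0 ∧ K.e v = v :=
  Iso.exists_eigenvector hq (L.toSideL a P) (K.toSideK a' P) a a' t0 t1 t0' t1' HT hP
    (fun χ _ _ _ hy => by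
      change evN (fun k => χ (a k)) P = evN y P
      simp only [hy])
    hb h₀σ h₀c h₀y h₀b

end Fermat.Agent.LT.Iso
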