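import Mathlib

/-!
# Isolation of the eigenvalue `0`

Let `x i` be bounded real numbers and `c n i` complex numbers with
`c (n+2) i = x i * c (n+1) i - c n i`, `c 0` and `c 1` summable. If `∑ i, c n i = 0` for all large
`n` then the sum of `c 0 i` over the `i` with `x i = 0` vanishes.

Proof: `G z = ∑ i, (c 0 i + (c 1 i - x i * c 0 i) z) / (1 - x i z + z²)` is a polynomial for small
`z`, hence in the upper half of the unit disc, where the denominators have no zeros; look at the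
radial limit at the point `I`.
-/

set_option autoImplicit false

noncomputable section

open Filter Topology Complex

namespace Fermat.Agent.LT.Iso

variable {ι : Type*}

/-- the upper half of the unit disc -/
def upperDisc : Set ℂ := {z | ‖z‖ < 1 ∧ 0 < z.im}

theorem isOpen_upperDisc : IsOpen upperDisc :=
  (isOpen_lt continuous_norm continuous_const).inter (isOpen_lt continuous_const continuous_im)

theorem convex_upperDisc : Convex ℝ upperDisc := by
  have h1 : upperDisc = Metric.ball (0 : ℂ) 1 ∩ {z | 0 < z.im} := by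
    ext z
    simp [upperDisc]
  rw [h1]
  exact (convex_ball _ _).inter (convex_halfSpace_im_gt 0)

/-- lower bound for the denominator -/
theorem le_norm_den (x : ℝ) {z : ℂ} (hz : z ∈ upperDisc) :
    z.im * (1 - ‖z‖ ^ 2) ≤ ‖1 - x * z + z ^ 2‖ := by
  obtain ⟨h1, h2⟩ := hz
  have hn0 : 0 < ‖z‖ := norm_pos_iff.2 (by rintro rfl; simp at h2)
  -- multiply by `conj z`
  have key : (starRingEnd ℂ z * (1 - x * z + z ^ 2)).im = - (z.im * (1 - ‖z‖ ^ 2)) := by
    have h3 : starRingEnd ℂ z * (1 - x * z + z ^ 2) =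
        starRingEnd ℂ z - ((x * ‖z‖ ^ 2 : ℝ) : ℂ) + ((‖z‖ ^ 2 : ℝ) : ℂ) * z := by
      have h4 : starRingEnd ℂ z * z = ((‖z‖ ^ 2 : ℝ) : ℂ) := by
        rw [mul_comm, mul_conj, normSq_eq_norm_sq]
      rw [ofReal_mul, ← h4]
      ring
    rw [h3]
    simp only [add_im, sub_im, conj_im, ofReal_im, im_ofReal_mul]
    ring
  have h5 := abs_im_le_norm (starRingEnd ℂ z * (1 - x * z + z ^ 2))
  rw [key, abs_neg, norm_mul, RCLike.norm_conj] at h5
  have h6 : 0 ≤ ‖1 - x * z + z ^ 2‖ := norm_nonneg _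
  calc z.im * (1 - ‖z‖ ^ 2) ≤ |z.im * (1 - ‖z‖ ^ 2)| := le_abs_self _
    _ ≤ ‖z‖ * ‖1 - x * z + z ^ 2‖ := h5
    _ ≤ 1 * ‖1 - x * z + z ^ 2‖ := by gcongr
    _ = _ := one_mul _

theorem den_pos {z : ℂ} (hz : z ∈ upperDisc) : 0 < z.im * (1 - ‖z‖ ^ 2) := by
  obtain ⟨h1, h2⟩ := hz
  have : ‖z‖ ^ 2 < 1 := by
    have := norm_nonneg z
    nlinarith
  exact mul_pos h2 (by linarith)

theorem den_ne_zero (x : ℝ) {z : ℂ} (hz : z ∈ upperDisc) : 1 - x * z + z ^ 2 ≠ 0 := by
  intro h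
  have h1 := le_norm_den x hz
  rw [h, norm_zero] at h1
  exact absurd (den_pos hz) (not_lt.2 h1)

section Main

variable {x : ι → ℝ} {B : ℝ} (hB : ∀ i, |x i| ≤ B) {c : ℕ → ι → ℂ}
  (h0 : Summable (c 0)) (h1 : Summable (c 1))
  (hrec : ∀ n i, c (n + 2) i = x i * c (n + 1) i - c n i)

/-- the generating functions -/
def gf (x : ι → ℝ) (c : ℕ → ι → ℂ) (i : ι) (z : ℂ) : ℂ :=
  (c 0 i + (c 1 i - x i * c 0 i) * z) / (1 - x i * z + z ^ 2)

include hB in
theorem norm_num_le (i : ι) {z : ℂ} (hz : ‖z‖ ≤ 1) :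
    ‖c 0 i + (c 1 i - x i * c 0 i) * z‖ ≤ (1 + B) * (‖c 0 i‖ + ‖c 1 i‖) := by
  have hB0 : 0 ≤ B := (abs_nonneg _).trans (hB i)
  have h2 : ‖(x i : ℂ)‖ ≤ B := by rw [norm_real]; exact hB i
  have h3 : ‖(c 1 i - x i * c 0 i) * z‖ ≤ ‖c 1 i‖ + B * ‖c 0 i‖ := by
    rw [norm_mul]
    calc ‖c 1 i - x i * c 0 i‖ * ‖z‖ ≤ ‖c 1 i - x i * c 0 i‖ * 1 := by gcongr
      _ ≤ ‖c 1 i‖ + ‖x i * c 0 i‖ := by rw [mul_one]; exact norm_sub_le _ _
      _ ≤ ‖c 1 i‖ + B * ‖c 0 i‖ := by rw [norm_mul]; gcongr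
  have h4 := norm_add_le (c 0 i) ((c 1 i - x i * c 0 i) * z)
  have h5 : 0 ≤ B * ‖c 1 i‖ := mul_nonneg hB0 (norm_nonneg _)
  nlinarith

include h0 h1 in
theorem summable_bound (C : ℝ) : Summable fun i => C * (‖c 0 i‖ + ‖c 1 i‖) :=
  (h0.norm.add h1.norm).mul_left C

include hB h0 h1 in
theorem differentiableOn_gf :
    DifferentiableOn ℂ (fun z => ∑' i, gf x c i z) upperDisc := by
  intro z₀ hz₀
  set δ : ℝ := z₀.im * (1 - ‖z₀‖ ^ 2) with hδ
  have hδ0 : 0 < δ := den_pos hz₀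
  set U : Set ℂ := {z | z ∈ upperDisc ∧ δ / 2 < z.im * (1 - ‖z‖ ^ 2)} with hU
  have hUo : IsOpen U := by
    have h2 : IsOpen {z : ℂ | δ / 2 < z.im * (1 - ‖z‖ ^ 2)} :=
      isOpen_lt continuous_const (by fun_prop)
    exact isOpen_upperDisc.inter h2
  have hz₀U : z₀ ∈ U := ⟨hz₀, by rw [← hδ]; linarith⟩
  have h2 : DifferentiableOn ℂ (fun z => ∑' i, gf x c i z) U := by
    refine differentiableOn_tsum_of_summable_norm
      (u := fun i => ((1 + B) * (δ / 2)⁻¹) * (‖c 0 i‖ + ‖c 1 i‖))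
      (summable_bound h0 h1 _) ?_ hUo ?_
    · intro i z hz
      refine DifferentiableAt.differentiableWithinAt ?_
      unfold gf
      refine DifferentiableAt.div ?_ ?_ (den_ne_zero _ hz.1)
      · fun_prop
      · fun_prop
    · intro i z hz
      unfold gf
      rw [norm_div]
      have h3 : δ / 2 ≤ ‖1 - x i * z + z ^ 2‖ := hz.2.le.trans (le_norm_den _ hz.1)
      have h4 := norm_num_le hB (c := c) i hz.1.1.le
      have h5 : 0 < δ / 2 := by linarith
      have h6 : 0 ≤ (1 + B) * (‖c 0 i‖ + ‖c 1 i‖) := (norm_nonneg _).trans h4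
      calc ‖c 0 i + (c 1 i - x i * c 0 i) * z‖ / ‖1 - x i * z + z ^ 2‖
          ≤ ((1 + B) * (‖c 0 i‖ + ‖c 1 i‖)) / (δ / 2) := by gcongr
        _ = _ := by rw [div_eq_mul_inv]; ring
  exact (h2.differentiableAt (hUo.mem_nhds hz₀U)).differentiableWithinAt

include hB hrec in
theorem norm_c_le (n : ℕ) (i : ι) : ‖c n i‖ ≤ (1 + B) ^ n * (‖c 0 i‖ + ‖c 1 i‖) := by
  have hB0 : 0 ≤ B := (abs_nonneg _).trans (hB i)
  induction n using Nat.strong_induction_on with
  | _ n ih =>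
    match n, ih with
    | 0, _ => simp
    | 1, _ =>
      rw [pow_one]
      nlinarith [norm_nonneg (c 0 i), norm_nonneg (c 1 i)]
    | n + 2, ih =>
      rw [hrec]
      have h2 : ‖(x i : ℂ)‖ ≤ B := by rw [norm_real]; exact hB i
      have h3 := ih (n + 1) (by omega)
      have h4 := ih n (by omega)
      set s := ‖c 0 i‖ + ‖c 1 i‖ with hs
      have hs0 : 0 ≤ s := by positivity
      have h5 : 0 ≤ (1 + B) ^ n * s := by positivity
      calc ‖x i * c (n + 1) i - c n i‖ ≤ ‖(x i : ℂ) * c (n + 1) i‖ + ‖c n i‖ := norm_sub_le _ _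
        _ = ‖(x i : ℂ)‖ * ‖c (n + 1) i‖ + ‖c n i‖ := by rw [norm_mul]
        _ ≤ B * ((1 + B) ^ (n + 1) * s) + (1 + B) ^ n * s := by gcongr
        _ ≤ (1 + B) ^ (n + 2) * s := by
          have h6 : (1 + B) ^ (n + 2) * s - (B * ((1 + B) ^ (n + 1) * s) + (1 + B) ^ n * s) =
              B * ((1 + B) ^ n * s) := by ring
          nlinarith

include hB hrec in
theorem hasSum_gf (i : ι) {z : ℂ} (hz : z ∈ upperDisc) (hzs : (1 + B) * ‖z‖ < 1) :
    HasSum (fun n => c n i * z ^ n) (gf x c i z) := by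
  have hB0 : 0 ≤ B := (abs_nonneg _).trans (hB i)
  have hsum : Summable fun n => c n i * z ^ n := by
    refine Summable.of_norm_bounded
      (g := fun n => (‖c 0 i‖ + ‖c 1 i‖) * ((1 + B) * ‖z‖) ^ n) ?_ ?_
    · exact (summable_geometric_of_lt_one (by positivity) hzs).mul_left _
    · intro n
      rw [norm_mul, norm_pow, mul_pow]
      have h2 := norm_c_le hB hrec n i
      calc ‖c n i‖ * ‖z‖ ^ n ≤ ((1 + B) ^ n * (‖c 0 i‖ + ‖c 1 i‖)) * ‖z‖ ^ n := by gcongr
        _ = _ := by ring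
  set S := ∑' n, c n i * z ^ n with hS
  have e0 : S = c 0 i + z * ∑' n, c (n + 1) i * z ^ n := by
    rw [hS, hsum.tsum_eq_zero_add, pow_zero, mul_one, ← tsum_mul_left]
    congr 1
    refine tsum_congr fun n => ?_
    rw [pow_succ]
    ring
  have hsum1 : Summable fun n => c (n + 1) i * z ^ n := by
    have h3 := (summable_nat_add_iff 1).2 hsum
    have hz0 : z ≠ 0 := by rintro rfl; exact absurd hz.2 (by simp)
    refine (summable_mul_left_iff hz0).1 (h3.congr fun n => ?_)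
    rw [pow_succ]; ring
  have e1 : ∑' n, c (n + 1) i * z ^ n = c 1 i + z * ∑' n, c (n + 2) i * z ^ n := by
    rw [hsum1.tsum_eq_zero_add, pow_zero, mul_one, ← tsum_mul_left]
    congr 1
    refine tsum_congr fun n => ?_
    rw [pow_succ]
    ring
  have e2 : ∑' n, c (n + 2) i * z ^ n = x i * ∑' n, c (n + 1) i * z ^ n - S := by
    rw [hS, ← tsum_mul_left, ← (hsum1.mul_left _).tsum_sub hsum]
    refine tsum_congr fun n => ?_
    rw [hrec]
    ring
  have hfin : S = gf x c i z := by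
    rw [gf, eq_div_iff (den_ne_zero _ hz)]
    set S1 := ∑' n, c (n + 1) i * z ^ n
    rw [e2] at e1
    linear_combination (1 - x i * z) * e0 + z * e1
  rw [← hfin]
  exact hsum.hasSum

include hB h0 h1 hrec in
/-- the sum of the generating functions near `0` is the generating function of the sums -/
theorem tsum_gf_eq {n₀ : ℕ} (H : ∀ n, n₀ ≤ n → ∑' i, c n i = 0) {z : ℂ} (hz : z ∈ upperDisc)
    (hzs : (1 + |B|) * ‖z‖ < 1) :
    ∑' i, gf x c i z = ∑ n ∈ Finset.range n₀, (∑' i, c n i) * z ^ n := by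
  have hB' : ∀ i, |x i| ≤ |B| := fun i => (hB i).trans (le_abs_self _)
  have hz0 : z ≠ 0 := by rintro rfl; exact absurd hz.2 (by simp)
  have hsum : Summable fun p : ι × ℕ => c p.2 p.1 * z ^ p.2 := by
    have h2 : Summable fun p : ι × ℕ =>
        (‖c 0 p.1‖ + ‖c 1 p.1‖) * ((1 + |B|) * ‖z‖) ^ p.2 :=
      (h0.norm.add h1.norm).mul_of_nonneg
        (summable_geometric_of_lt_one (by positivity) hzs)
        (fun i => by positivity) (fun n => by positivity)
    refine Summable.of_norm_bounded h2 ?_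
    rintro ⟨i, n⟩
    rw [norm_mul, norm_pow, mul_pow]
    have h3 := norm_c_le hB' hrec n i
    calc ‖c n i‖ * ‖z‖ ^ n ≤ ((1 + |B|) ^ n * (‖c 0 i‖ + ‖c 1 i‖)) * ‖z‖ ^ n := by gcongr
      _ = _ := by ring
  calc ∑' i, gf x c i z = ∑' i, ∑' n, c n i * z ^ n :=
        tsum_congr fun i => (hasSum_gf hB' hrec i hz hzs).tsum_eq.symm
    _ = ∑' n, ∑' i, c n i * z ^ n := (Summable.tsum_comm hsum).symm
    _ = ∑' n, (∑' i, c n i) * z ^ n := tsum_congr fun n => tsum_mul_right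
    _ = ∑ n ∈ Finset.range n₀, (∑' i, c n i) * z ^ n := by
      refine tsum_eq_sum fun n hn => ?_
      rw [Finset.mem_range, not_lt] at hn
      rw [H n hn, zero_mul]

include hB h0 h1 hrec in
theorem tsum_gf_eq_all {n₀ : ℕ} (H : ∀ n, n₀ ≤ n → ∑' i, c n i = 0) {z : ℂ}
    (hz : z ∈ upperDisc) :
    ∑' i, gf x c i z = ∑ n ∈ Finset.range n₀, (∑' i, c n i) * z ^ n := by
  set ε : ℝ := (1 + |B|)⁻¹ / 2 with hε
  have hB1 : 0 < 1 + |B| := by positivity
  have hε0 : 0 < ε := by positivity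
  have hε1 : ε < 1 := by
    have : (1 + |B|)⁻¹ ≤ 1 := inv_le_one_of_one_le₀ (by linarith [abs_nonneg B])
    rw [hε]; linarith
  have hεB : (1 + |B|) * ε = 1 / 2 := by
    rw [hε]; field_simp
  have hz₁ : (ε : ℂ) * I ∈ upperDisc := by
    constructor
    · rw [norm_mul, norm_I, mul_one, norm_real, Real.norm_of_nonneg hε0.le]
      exact hε1
    · simp [hε0]
  have hA : AnalyticOnNhd ℂ (fun z => ∑' i, gf x c i z) upperDisc :=
    (differentiableOn_gf hB h0 h1).analyticOnNhd isOpen_upperDisc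
  have hP : AnalyticOnNhd ℂ (fun z : ℂ => ∑ n ∈ Finset.range n₀, (∑' i, c n i) * z ^ n)
      upperDisc := by
    refine DifferentiableOn.analyticOnNhd ?_ isOpen_upperDisc
    fun_prop
  refine hA.eqOn_of_preconnected_of_eventuallyEq hP convex_upperDisc.isPreconnected hz₁ ?_ hz
  have h2 : {z : ℂ | z ∈ upperDisc ∧ (1 + |B|) * ‖z‖ < 1} ∈ 𝓝 ((ε : ℂ) * I) := by
    have h3 : IsOpen {z : ℂ | (1 + |B|) * ‖z‖ < 1} := isOpen_lt (by fun_prop) continuous_const
    refine (isOpen_upperDisc.inter h3).mem_nhds ⟨hz₁, ?_⟩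
    change (1 + |B|) * ‖(ε : ℂ) * I‖ < 1
    rw [norm_mul, norm_I, mul_one, norm_real, Real.norm_of_nonneg hε0.le, hεB]
    norm_num
  filter_upwards [h2] with w hw
  exact tsum_gf_eq hB h0 h1 hrec H hw.1 hw.2

include hB h0 h1 hrec in
theorem half {n₀ : ℕ} (H : ∀ n, n₀ ≤ n → ∑' i, c n i = 0) :
    ∑' i, (if x i = 0 then c 0 i + c 1 i * I else 0) = 0 := by
  -- the radial limit at `I`
  have hmem : ∀ᶠ r : ℝ in 𝓝[<] 1, (r : ℂ) * I ∈ upperDisc := by
    filter_upwards [Ioo_mem_nhdsLT (show (0 : ℝ) < 1 by norm_num)] with r hr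
    constructor
    · rw [norm_mul, norm_I, mul_one, norm_real, Real.norm_of_nonneg hr.1.le]
      exact hr.2
    · simp [hr.1]
  have hlim1 : Tendsto (fun r : ℝ => ∑' i, (1 - (r : ℂ)) * gf x c i (r * I)) (𝓝[<] 1)
      (𝓝 (∑' i, (if x i = 0 then (c 0 i + c 1 i * I) / 2 else 0))) := by
    refine tendsto_tsum_of_dominated_convergence
      (bound := fun i => (1 + |B|) * (‖c 0 i‖ + ‖c 1 i‖)) (summable_bound h0 h1 _) ?_ ?_
    · intro i
      have hden : ∀ r : ℝ, (1 : ℂ) - x i * (r * I) + (r * I) ^ 2 =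
          (1 - r) * (1 + r) - x i * (r * I) := by
        intro r
        rw [mul_pow, I_sq]
        ring
      have hev : ∀ r : ℝ, (1 - (r : ℂ)) * gf x c i (r * I) =
          ((1 - r) * (c 0 i + (c 1 i - x i * c 0 i) * (r * I))) /
            ((1 - r) * (1 + r) - x i * (r * I)) := by
        intro r
        rw [gf, hden, mul_div_assoc]
      by_cases hx : x i = 0
      · rw [if_pos hx]
        have h2 : Tendsto (fun r : ℝ => (c 0 i + c 1 i * (r * I)) / (1 + r : ℂ)) (𝓝[<] 1)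
            (𝓝 ((c 0 i + c 1 i * (((1 : ℝ) : ℂ) * I)) / (1 + ((1 : ℝ) : ℂ)))) := by
          refine Tendsto.mono_left ?_ nhdsWithin_le_nhds
          refine ContinuousAt.tendsto (f := fun r : ℝ => (c 0 i + c 1 i * (r * I)) / (1 + r : ℂ)) ?_
          refine ContinuousAt.div (by fun_prop) (by fun_prop) ?_
          norm_num
        have h3 : (c 0 i + c 1 i * (((1 : ℝ) : ℂ) * I)) / (1 + ((1 : ℝ) : ℂ)) =
            (c 0 i + c 1 i * I) / 2 := by
          norm_num
        rw [h3] at h2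
        refine h2.congr' ?_
        filter_upwards [self_mem_nhdsWithin] with r hr
        have hr1 : (1 : ℂ) - r ≠ 0 := by
          rw [sub_ne_zero]
          intro h
          have : (1 : ℝ) = r := by exact_mod_cast h
          exact absurd this (ne_of_gt hr)
        rw [hev, hx]
        push_cast
        rw [zero_mul, sub_zero, zero_mul, sub_zero, mul_div_mul_left _ _ hr1]
      · rw [if_neg hx]
        have h2 : Tendsto (fun r : ℝ => ((1 - r) * (c 0 i + (c 1 i - x i * c 0 i) * (r * I))) /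
            ((1 - r) * (1 + r) - x i * (r * I) : ℂ)) (𝓝[<] 1)
            (𝓝 (((1 - ((1 : ℝ) : ℂ)) * (c 0 i + (c 1 i - x i * c 0 i) * (((1 : ℝ) : ℂ) * I))) /
            ((1 - ((1 : ℝ) : ℂ)) * (1 + ((1 : ℝ) : ℂ)) - x i * (((1 : ℝ) : ℂ) * I)))) := by
          refine Tendsto.mono_left ?_ nhdsWithin_le_nhds
          refine ContinuousAt.tendsto (f := fun r : ℝ =>
            ((1 - r) * (c 0 i + (c 1 i - x i * c 0 i) * (r * I))) /
            ((1 - r) * (1 + r) - x i * (r * I) : ℂ)) ?_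
          refine ContinuousAt.div (by fun_prop) (by fun_prop) ?_
          have : (x i : ℂ) ≠ 0 := by exact_mod_cast hx
          simp [this]
        have h3 : ((1 - ((1 : ℝ) : ℂ)) * (c 0 i + (c 1 i - x i * c 0 i) * (((1 : ℝ) : ℂ) * I))) /
            ((1 - ((1 : ℝ) : ℂ)) * (1 + ((1 : ℝ) : ℂ)) - x i * (((1 : ℝ) : ℂ) * I)) = 0 := by
          rw [ofReal_one, sub_self, zero_mul, zero_div]
        rw [h3] at h2
        exact h2.congr fun r => (hev r).symm
    · filter_upwards [hmem, Ioo_mem_nhdsLT (show (0 : ℝ) < 1 by norm_num)] with r hr hr' i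
      have hB' : ∀ i, |x i| ≤ |B| := fun i => (hB i).trans (le_abs_self _)
      have h2 := norm_num_le hB' (c := c) i hr.1.le
      have h3 : (1 - r) ≤ ‖1 - x i * (r * I) + (r * I) ^ 2‖ := by
        have h4 := abs_re_le_norm (1 - x i * (r * I) + (r * I) ^ 2)
        have h5 : (1 - x i * (r * I) + (r * I) ^ 2 : ℂ).re = 1 - r ^ 2 := by
          rw [mul_pow, I_sq]
          simp [← ofReal_pow]
          ring
        rw [h5] at h4
        refine le_trans ?_ ((le_abs_self _).trans h4)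
        nlinarith [hr'.1, hr'.2]
      have h6 : ‖(1 : ℂ) - r‖ = 1 - r := by
        rw [← ofReal_one, ← ofReal_sub, norm_real, Real.norm_of_nonneg (by linarith [hr'.2])]
      have h7 : 0 < ‖1 - x i * (r * I) + (r * I) ^ 2‖ := norm_pos_iff.2 (den_ne_zero _ hr)
      rw [norm_mul, gf, norm_div, h6, ← mul_div_assoc, div_le_iff₀ h7]
      have h8 : 0 ≤ (1 + |B|) * (‖c 0 i‖ + ‖c 1 i‖) := by positivity
      have h9 : 0 ≤ 1 - r := by linarith [hr'.2]
      calc (1 - r) * ‖c 0 i + (c 1 i - x i * c 0 i) * (r * I)‖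
          ≤ (1 - r) * ((1 + |B|) * (‖c 0 i‖ + ‖c 1 i‖)) := by gcongr
        _ ≤ ‖1 - x i * (r * I) + (r * I) ^ 2‖ * ((1 + |B|) * (‖c 0 i‖ + ‖c 1 i‖)) := by gcongr
        _ = _ := mul_comm _ _
  have hlim2 : Tendsto (fun r : ℝ => ∑' i, (1 - (r : ℂ)) * gf x c i (r * I)) (𝓝[<] 1) (𝓝 0) := by
    have h2 : Tendsto (fun r : ℝ => (1 - (r : ℂ)) *
        ∑ n ∈ Finset.range n₀, (∑' i, c n i) * ((r : ℂ) * I) ^ n) (𝓝[<] 1)
        (𝓝 ((1 - ((1 : ℝ) : ℂ)) *
          ∑ n ∈ Finset.range n₀, (∑' i, c n i) * (((1 : ℝ) : ℂ) * I) ^ n)) := by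
      refine Tendsto.mono_left ?_ nhdsWithin_le_nhds
      refine ContinuousAt.tendsto (f := fun r : ℝ => (1 - (r : ℂ)) *
        ∑ n ∈ Finset.range n₀, (∑' i, c n i) * ((r : ℂ) * I) ^ n) ?_
      fun_prop
    rw [ofReal_one, sub_self, zero_mul] at h2
    refine h2.congr' ?_
    filter_upwards [hmem] with r hr
    rw [tsum_mul_left, tsum_gf_eq_all hB h0 h1 hrec H hr]
  have h2 := tendsto_nhds_unique hlim1 hlim2
  have h3 : ∑' i, (if x i = 0 then c 0 i + c 1 i * I else 0) =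
      2 * ∑' i, (if x i = 0 then (c 0 i + c 1 i * I) / 2 else 0) := by
    rw [← tsum_mul_left]
    refine tsum_congr fun i => ?_
    split_ifs
    · ring
    · ring
  rw [h3, h2, mul_zero]

include hB h0 h1 hrec in
/-- **Isolation of `x = 0`.** -/
theorem isolate_zero {n₀ : ℕ} (H : ∀ n, n₀ ≤ n → ∑' i, c n i = 0) :
    ∑' i, (if x i = 0 then c 0 i else 0) = 0 := by
  have e1 := half hB h0 h1 hrec H
  have e2 := half (x := fun i => - x i) (B := B) (c := fun n i => (-1) ^ n * c n i)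
    (fun i => by rw [abs_neg]; exact hB i)
    (by simpa using h0) (by simpa using h1.neg)
    (fun n i => by rw [hrec]; push_cast; ring)
    (n₀ := n₀) (fun n hn => by rw [tsum_mul_left, H n hn, mul_zero])
  have e3 : ∀ i, (if - x i = 0 then (-1) ^ 0 * c 0 i + (-1) ^ 1 * c 1 i * I else 0) =
      if x i = 0 then c 0 i - c 1 i * I else 0 := by
    intro i
    simp only [neg_eq_zero]
    split_ifs
    · ring
    · rfl
  simp only [e3] at e2
  have s0 : Summable fun i => if x i = 0 then c 0 i else 0 := by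
    refine Summable.of_norm_bounded h0.norm fun i => ?_
    split_ifs
    · exact le_rfl
    · simp
  have s1 : Summable fun i => if x i = 0 then c 1 i * I else 0 := by
    refine Summable.of_norm_bounded (h1.mul_right I).norm fun i => ?_
    split_ifs
    · exact le_rfl
    · simp
  have e4 : ∑' i, (if x i = 0 then c 0 i + c 1 i * I else 0) =
      ∑' i, (if x i = 0 then c 0 i else 0) + ∑' i, (if x i = 0 then c 1 i * I else 0) := by
    rw [← s0.tsum_add s1]
    refine tsum_congr fun i => ?_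
    split_ifs <;> simp
  have e5 : ∑' i, (if x i = 0 then c 0 i - c 1 i * I else 0) =
      ∑' i, (if x i = 0 then c 0 i else 0) - ∑' i, (if x i = 0 then c 1 i * I else 0) := by
    rw [← s0.tsum_sub s1]
    refine tsum_congr fun i => ?_
    split_ifs <;> simp
  rw [e4] at e1
  rw [e5] at e2
  linear_combination (e1 + e2) / 2

end Main

end Fermat.Agent.LT.Iso
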